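import Fermat.Agent.APoints.Reflect
import Fermat.Agent.LevinsonThird.Edges

/-!
# The normalised function `(ζ - a) / lead`

`aFn a = (ζ - a) e` with `e = 2^s` for `a = 1` and `1 / (1 - a)` otherwise tends to `1` on the
right. Jensen's inequality bounds its zeros in a unit window and its weighted argument on a
horizontal edge by `O (log T)`.
-/

set_option autoImplicit false

noncomputable section

namespace FA.APoints

open Complex Filter MeasureTheory Set Metric
open FA.LevinsonThird (sum_count_le_card continuousAt_logDeriv)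
open scoped Real Topology

/-- The normalising factor. -/
def aScale (a s : ℂ) : ℂ := if a = 1 then (2 : ℂ) ^ s else (1 - a)⁻¹

/-- The normalised `ζ - a`. -/
def aFn (a s : ℂ) : ℂ := (riemannZeta s - a) * aScale a s

/-- The upper half plane. -/
def aDomain : Set ℂ := {s : ℂ | 0 < s.im}

theorem isOpen_aDomain : IsOpen aDomain := isOpen_lt continuous_const continuous_im

theorem convex_aDomain : Convex ℝ aDomain := convex_halfSpace_im_gt _

theorem aScale_ne_zero (a s : ℂ) : aScale a s ≠ 0 := by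
  rw [aScale]
  split_ifs with h
  · exact (Complex.cpow_ne_zero_iff).2 (Or.inl two_ne_zero)
  · exact inv_ne_zero (sub_ne_zero.2 (Ne.symm h))

theorem differentiable_aScale (a : ℂ) : Differentiable ℂ (aScale a) := by
  unfold aScale
  split_ifs
  · exact differentiable_id.const_cpow (Or.inl two_ne_zero)
  · exact differentiable_const _

theorem exists_norm_aScale (a : ℂ) : ∃ p q : ℝ, 0 ≤ p ∧ p ≤ 1 ∧
    ∀ s, ‖aScale a s‖ = Real.exp (p * s.re + q) := by
  rcases eq_or_ne a 1 with h | h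
  · refine ⟨Real.log 2, 0, Real.log_nonneg one_le_two,
      (Real.log_le_sub_one_of_pos two_pos).trans (by norm_num), fun s => ?_⟩
    rw [aScale, if_pos h, show (2 : ℂ) = ((2 : ℝ) : ℂ) by norm_num,
      norm_cpow_eq_rpow_re_of_pos two_pos, Real.rpow_def_of_pos two_pos, add_zero]
  · refine ⟨0, -Real.log ‖1 - a‖, le_rfl, zero_le_one, fun s => ?_⟩
    rw [aScale, if_neg h, norm_inv, zero_mul, zero_add, Real.exp_neg,
      Real.exp_log (norm_pos_iff.2 (sub_ne_zero.2 (Ne.symm h)))]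

theorem differentiableOn_aFn (a : ℂ) : DifferentiableOn ℂ (aFn a) aDomain := fun s hs =>
  (((differentiableAt_riemannZeta fun h => by
    rw [aDomain, Set.mem_ofPred_eq, h, one_im] at hs
    exact lt_irrefl _ hs).sub_const a).mul (differentiable_aScale a s)).differentiableWithinAt

theorem aFn_eq_zero_iff (a s : ℂ) : aFn a s = 0 ↔ riemannZeta s = a := by
  rw [aFn, mul_eq_zero, or_iff_left (aScale_ne_zero a s), sub_eq_zero]

/-- The normalisation does not change the multiplicities. -/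
theorem analyticOrderNatAt_aFn (a : ℂ) {s : ℂ} (hs : s ∈ aDomain) :
    analyticOrderNatAt (aFn a) s = analyticOrderNatAt (fun z => riemannZeta z - a) s := by
  have h1 : s ≠ 1 := fun h => by
    rw [aDomain, Set.mem_ofPred_eq, h, one_im] at hs
    exact lt_irrefl _ hs
  have ha : AnalyticAt ℂ (fun z => riemannZeta z - a) s :=
    (FA.Levinson.analyticAt_zeta h1).sub analyticAt_const
  rw [show aFn a = (fun z => riemannZeta z - a) * aScale a from rfl, analyticOrderNatAt,
    analyticOrderNatAt, analyticOrderAt_mul ha ((differentiable_aScale a).analyticAt s),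
    ((differentiable_aScale a).analyticAt s).analyticOrderAt_eq_zero.2 (aScale_ne_zero a s),
    add_zero]

/-- **On the right the function is close to `1`.** -/
theorem exists_aFn_right (a : ℂ) : ∃ A : ℝ, 6 ≤ A ∧ ∀ s : ℂ, A ≤ s.re →
    ‖aFn a s - 1‖ ≤ 1 / 2 := by
  rcases eq_or_ne a 1 with h | h
  · refine ⟨6, le_rfl, fun s hs => ?_⟩
    have h2 : (2 : ℂ) ^ s * (2 : ℂ) ^ (-s) = 1 := by
      rw [← Complex.cpow_add _ _ two_ne_zero, add_neg_cancel, Complex.cpow_zero]
    rw [aFn, aScale, if_pos h, h, show (riemannZeta s - 1) * (2 : ℂ) ^ s - 1 =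
      (2 : ℂ) ^ s * (riemannZeta s - 1 - (2 : ℂ) ^ (-s)) by linear_combination h2, norm_mul,
      show (2 : ℂ) = ((2 : ℝ) : ℂ) by norm_num, norm_cpow_eq_rpow_re_of_pos two_pos]
    refine (mul_le_mul_of_nonneg_left (norm_zeta_right (by linarith)) (by positivity)).trans ?_
    rw [show (2 : ℝ) ^ s.re * ((3 : ℝ) ^ (2 - s.re) / 2) = 9 / 2 * (2 / 3 : ℝ) ^ s.re by
      rw [Real.div_rpow two_pos.le (by norm_num : (0 : ℝ) ≤ 3), Real.rpow_sub (by norm_num),
        Real.rpow_two]
      ring]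
    refine (mul_le_mul_of_nonneg_left (Real.rpow_le_rpow_of_exponent_ge (by norm_num)
      (by norm_num) hs) (by norm_num)).trans ?_
    norm_num
  · obtain ⟨d, hd⟩ : ∃ d, d = ‖1 - a‖ := ⟨_, rfl⟩
    have hd0 : 0 < d := hd ▸ norm_pos_iff.2 (sub_ne_zero.2 (Ne.symm h))
    refine ⟨max 6 (20 / d), le_max_left _ _, fun s hs => ?_⟩
    rw [max_le_iff] at hs
    have e : aFn a s - 1 = (riemannZeta s - 1) / (1 - a) := by
      have := sub_ne_zero.2 (Ne.symm h)
      rw [aFn, aScale, if_neg h]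
      field_simp
      ring
    obtain ⟨y, hy⟩ : ∃ y : ℝ, y = (2 : ℝ) ^ (-s.re) := ⟨_, rfl⟩
    have hy0 : 0 < y := hy ▸ Real.rpow_pos_of_pos two_pos _
    have h3 : (3 : ℝ) ^ (2 - s.re) ≤ 9 * y := by
      rw [Real.rpow_sub (by norm_num), Real.rpow_two, div_eq_mul_inv,
        ← Real.rpow_neg (by norm_num), hy]
      norm_num
      exact Real.rpow_le_rpow_of_nonpos two_pos (by norm_num) (by linarith)
    have hnum : ‖riemannZeta s - 1‖ ≤ 6 * y := by
      have h1 := norm_le_norm_add_norm_sub' (riemannZeta s - 1) ((2 : ℂ) ^ (-s))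
      rw [norm_two_cpow_neg, ← hy] at h1
      linarith [norm_zeta_right (show 2 ≤ s.re by linarith)]
    have hpow : 2 / 3 * s.re * y ≤ 1 := by
      have h1 : 2 / 3 * s.re ≤ (2 : ℝ) ^ s.re := by
        rw [Real.rpow_def_of_pos two_pos]
        have := Real.log_two_gt_d9
        nlinarith [Real.add_one_le_exp (Real.log 2 * s.re)]
      refine (mul_le_mul_of_nonneg_right h1 hy0.le).trans (le_of_eq ?_)
      rw [hy, ← Real.rpow_add two_pos, add_neg_cancel, Real.rpow_zero]
    have h20 : 20 ≤ s.re * d := (div_le_iff₀ hd0).1 hs.2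
    have hyd := mul_le_mul_of_nonneg_right h20 hy0.le
    have hpd := mul_le_mul_of_nonneg_left hpow hd0.le
    rw [e, norm_div, ← hd, div_le_iff₀ hd0]
    linarith

/-- One root along a horizontal segment. -/
theorem root_arg_le {σ A : ℝ} (hσA : σ ≤ A) {t : ℝ} {ρ : ℂ}
    (hne : ∀ u ∈ Icc σ A, (u : ℂ) + t * I ≠ ρ) :
    IntervalIntegrable (fun u : ℝ => (u - σ) * (((u : ℂ) + t * I - ρ)⁻¹).im) volume σ A ∧
      |∫ u in σ..A, (u - σ) * (((u : ℂ) + t * I - ρ)⁻¹).im| ≤ (A - σ) * π := by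
  have hc : ContinuousOn (fun u : ℝ => (((u : ℂ) + t * I - ρ)⁻¹).im) (uIcc σ A) :=
    Complex.continuous_im.comp_continuousOn (ContinuousOn.inv₀ (by fun_prop) fun u hu => by
      rw [uIcc_of_le hσA] at hu
      exact sub_ne_zero.2 (hne u hu))
  have hi : IntervalIntegrable (fun u : ℝ => (u - σ) * (((u : ℂ) + t * I - ρ)⁻¹).im) volume σ A :=
    ((Continuous.continuousOn (by fun_prop)).mul hc).intervalIntegrable
  refine ⟨hi, ?_⟩
  obtain ⟨y, hy⟩ : ∃ y, y = t - ρ.im := ⟨_, rfl⟩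
  have him : ∀ u : ℝ, (((u : ℂ) + t * I - ρ)⁻¹).im = -y / ((u - ρ.re) ^ 2 + y ^ 2) := fun u => by
    rw [Complex.inv_im, hy, normSq_apply]
    simp only [sub_re, sub_im, add_re, add_im, mul_re, mul_im, ofReal_re, ofReal_im, I_re, I_im,
      mul_zero, mul_one, sub_zero, zero_add, add_zero]
    ring
  simp only [him] at hc ⊢
  rcases eq_or_ne y 0 with h0 | h0
  · simp only [h0, neg_zero, zero_div, mul_zero, intervalIntegral.integral_zero, abs_zero]
    exact mul_nonneg (by linarith) Real.pi_pos.le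
  have hy0 : 0 < |y| := abs_pos.2 h0
  have hd : ∀ u : ℝ, HasDerivAt (fun v : ℝ => (A - σ) * Real.arctan ((v - ρ.re) / |y|))
      ((A - σ) * (|y| / ((u - ρ.re) ^ 2 + y ^ 2))) u := fun u => by
    refine ((((hasDerivAt_id' u).sub_const ρ.re).div_const |y|).arctan.const_mul
      (A - σ)).congr_deriv ?_
    have : 0 < (u - ρ.re) ^ 2 + y ^ 2 := by positivity
    rw [← sq_abs y] at this ⊢
    field_simp
    ring
  have hden : Continuous fun u : ℝ => (A - σ) * (|y| / ((u - ρ.re) ^ 2 + y ^ 2)) :=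
    continuous_const.mul (continuous_const.div (by fun_prop) fun u => by positivity)
  refine (intervalIntegral.abs_integral_le_integral_abs
    (f := fun u : ℝ => (u - σ) * (-y / ((u - ρ.re) ^ 2 + y ^ 2))) (μ := volume) hσA).trans
    ((intervalIntegral.integral_mono_on hσA
      ((Continuous.continuousOn (by fun_prop)).mul hc).intervalIntegrable.abs
      (hden.intervalIntegrable σ A) fun u hu => ?_).trans ?_)
  · simp only [Pi.mul_apply]
    rw [abs_mul, abs_div, abs_neg,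
      abs_of_nonneg (show 0 ≤ (u - ρ.re) ^ 2 + y ^ 2 by positivity)]
    exact mul_le_mul_of_nonneg_right
      (by rw [abs_of_nonneg (by linarith [hu.1])]; linarith [hu.2]) (by positivity)
  · rw [intervalIntegral.integral_eq_sub_of_hasDerivAt (fun u _ => hd u)
      (hden.intervalIntegrable σ A), ← mul_sub]
    refine mul_le_mul_of_nonneg_left ?_ (by linarith)
    linarith [Real.arctan_lt_pi_div_two ((A - ρ.re) / |y|),
      Real.neg_pi_div_two_lt_arctan ((σ - ρ.re) / |y|)]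

theorem roots_arg_le {σ A : ℝ} (hσA : σ ≤ A) {t : ℝ} (Z : Multiset ℂ)
    (hne : ∀ ρ ∈ Z, ∀ u ∈ Icc σ A, (u : ℂ) + t * I ≠ ρ) :
    IntervalIntegrable (fun u : ℝ =>
        (u - σ) * ((Z.map fun ρ => ((u : ℂ) + t * I - ρ)⁻¹).sum).im) volume σ A ∧
      |∫ u in σ..A, (u - σ) * ((Z.map fun ρ => ((u : ℂ) + t * I - ρ)⁻¹).sum).im| ≤
        (A - σ) * π * Multiset.card Z := by
  induction Z using Multiset.induction_on with
  | empty => simp
  | cons ρ Y ih =>
    obtain ⟨hi, hb⟩ := ih fun x hx => hne x (Multiset.mem_cons_of_mem hx)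
    obtain ⟨hi1, hb1⟩ := root_arg_le hσA (hne ρ (Multiset.mem_cons_self ρ Y))
    simp only [Multiset.map_cons, Multiset.sum_cons, Multiset.card_cons, add_im, mul_add]
    refine ⟨hi1.add hi, ?_⟩
    rw [intervalIntegral.integral_add hi1 hi]
    refine (abs_add_le _ _).trans ?_
    push_cast
    linarith

/-- **Windows and horizontal edges.** -/
theorem exists_aFn_local (a : ℂ) {A : ℝ} (hA : 6 ≤ A)
    (hright : ∀ s : ℂ, A ≤ s.re → ‖aFn a s - 1‖ ≤ 1 / 2) :
    ∃ K, 0 ≤ K ∧ ∀ᶠ T : ℝ in atTop, ∀ c ∈ Icc T (2 * T),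
    (∀ F : Finset ℂ, (∀ ρ ∈ F, ρ.re ∈ Icc (-2) A ∧ |ρ.im - c| ≤ 1 / 2) →
      ((∑ ρ ∈ F, analyticOrderNatAt (aFn a) ρ : ℕ) : ℝ) ≤ K * Real.log T) ∧
    ∀ σ ∈ Icc (-2 : ℝ) 1, (∀ u ∈ Icc σ A, aFn a ((u : ℂ) + c * I) ≠ 0) →
      |∫ u in σ..A, (u - σ) * (deriv (aFn a) ((u : ℂ) + c * I) /
        aFn a ((u : ℂ) + c * I)).im| ≤ K * Real.log T := by
  obtain ⟨K, hK, hexp⟩ := FA.RiemannMangoldt.exists_logDeriv_expansion (r₁ := A + 5 / 2)
    (r := A + 3) (r₂ := A + 2) (by linarith) (by linarith) (by linarith)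
  obtain ⟨p, q, hp0, hp1, hsc⟩ := exists_norm_aScale a
  obtain ⟨M, hM⟩ : ∃ M : ℝ,
      M = 2 * ((Real.exp 100 * 16 ^ 5 + ‖a‖) * Real.exp (2 * A + 3 + |q|)) + 1 := ⟨_, rfl⟩
  have hM1 : 1 ≤ M := by rw [hM]; exact le_add_of_nonneg_left (by positivity)
  obtain ⟨K', hK'⟩ : ∃ K', K' = K * (Real.log M + 6) := ⟨_, rfl⟩
  have hK'0 : 0 ≤ K' := hK' ▸ mul_nonneg hK (by linarith [Real.log_nonneg hM1])
  refine ⟨((A + 2) * π + (A + 2) ^ 2 + 1) * K', by positivity, ?_⟩
  filter_upwards [eventually_ge_atTop (2 * A + 20),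
    Real.tendsto_log_atTop.eventually_ge_atTop 1] with T hT hL c hc
  obtain ⟨G, hG⟩ : ∃ G, G = aFn a := ⟨_, rfl⟩
  rw [← hG] at hright ⊢
  obtain ⟨s₀, hs₀⟩ : ∃ s₀ : ℂ, s₀ = (A : ℂ) + c * I := ⟨_, rfl⟩
  have hre : s₀.re = A := by simp [hs₀]
  have him : s₀.im = c := by simp [hs₀]
  obtain ⟨f, hf⟩ : ∃ f : ℂ → ℂ, f = fun z => G (s₀ + z) := ⟨_, rfl⟩
  have hbox : ∀ z : ℂ, ‖z‖ < A + 4 → s₀ + z ∈ aDomain := fun z hz => by
    have b := abs_le.1 ((abs_im_le_norm z).trans hz.le)
    rw [aDomain, Set.mem_ofPred_eq, add_im, him]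
    linarith [hc.1]
  have hd : DifferentiableOn ℂ f (ball 0 (A + 4)) := fun z hz => by
    rw [hf]
    exact (((hG ▸ differentiableOn_aFn a).differentiableAt
      (isOpen_aDomain.mem_nhds (hbox z (by simpa using hz)))).comp z
        (differentiableAt_id.const_add s₀)).differentiableWithinAt
  have hlow : 1 / 2 ≤ ‖f 0‖ := by
    have h := hright s₀ (by rw [hre])
    have h' := norm_sub_norm_le (1 : ℂ) (G s₀)
    rw [norm_one, norm_sub_rev] at h'
    simp only [hf, add_zero]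
    linarith
  obtain ⟨B, hB⟩ : ∃ B, B = M * T ^ 5 := ⟨_, rfl⟩
  have hT1 : 1 ≤ T := by linarith
  have hB1 : 1 ≤ B := hB ▸ one_le_mul_of_one_le_of_one_le hM1 (one_le_pow₀ hT1)
  have hsph : ∀ z ∈ sphere (0 : ℂ) (A + 3), ‖f z‖ ≤ B * ‖f 0‖ := fun z hz => by
    rw [mem_sphere_zero_iff_norm] at hz
    have ar := abs_le.1 ((abs_re_le_norm z).trans hz.le)
    have ai := abs_le.1 ((abs_im_le_norm z).trans hz.le)
    have h1 := norm_zeta_wide (s := s₀ + z) (by rw [add_re, hre]; linarith)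
      (by rw [add_im, him]; linarith [hc.1])
    have h2 : (5 * ((s₀ + z).im + 3)) ^ 5 ≤ (16 * T) ^ 5 := by
      refine pow_le_pow_left₀ ?_ ?_ 5 <;> rw [add_im, him]
      · linarith [hc.1]
      · linarith [hc.2]
    have h3 : ‖riemannZeta (s₀ + z) - a‖ ≤ (Real.exp 100 * 16 ^ 5 + ‖a‖) * T ^ 5 := by
      refine (norm_sub_le _ _).trans ((add_le_add (h1.trans (mul_le_mul_of_nonneg_left h2
        (Real.exp_pos _).le)) (le_mul_of_one_le_right (norm_nonneg a)
          (one_le_pow₀ hT1 (n := 5)))).trans (le_of_eq ?_))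
      ring
    have h4 : ‖aScale a (s₀ + z)‖ ≤ Real.exp (2 * A + 3 + |q|) := by
      rw [hsc, Real.exp_le_exp, add_re, hre]
      nlinarith [le_abs_self q]
    calc ‖f z‖ ≤ (Real.exp 100 * 16 ^ 5 + ‖a‖) * T ^ 5 * Real.exp (2 * A + 3 + |q|) := by
          rw [hf, hG]
          simp only [aFn, norm_mul]
          exact mul_le_mul h3 h4 (norm_nonneg _) (by positivity)
      _ ≤ B * (1 / 2) := by
          rw [hB, hM]
          have : 0 ≤ T ^ 5 := by positivity
          linarith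
      _ ≤ B * ‖f 0‖ := mul_le_mul_of_nonneg_left hlow (by linarith)
  obtain ⟨Z, hZ, hcard, hord, hlog⟩ := hexp (ball 0 (A + 4)) f B isOpen_ball
    (closedBall_subset_ball (by linarith)) hd
    (norm_pos_iff.1 (lt_of_lt_of_le (by norm_num) hlow)) hB1 hsph
  have hKB : K * (Real.log B + 1) ≤ K' * Real.log T := by
    rw [hK', hB, Real.log_mul (by linarith) (by positivity), Real.log_pow, mul_assoc]
    refine mul_le_mul_of_nonneg_left ?_ hK
    have h := mul_nonneg (Real.log_nonneg hM1) (show 0 ≤ Real.log T - 1 by linarith)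
    push_cast
    linarith
  have hcardT : (Multiset.card Z : ℝ) ≤ K' * Real.log T := hcard.trans hKB
  have hKL : 0 ≤ K' * Real.log T := mul_nonneg hK'0 (by linarith)
  have hsplit : ((A + 2) * π + (A + 2) ^ 2 + 1) * K' * Real.log T =
      (A + 2) * π * (K' * Real.log T) + (A + 2) ^ 2 * (K' * Real.log T) + K' * Real.log T := by ring
  have hpi : 0 ≤ (A + 2) * π * (K' * Real.log T) := by positivity
  have hsq : 0 ≤ (A + 2) ^ 2 * (K' * Real.log T) := by positivity
  refine ⟨fun F hF => ?_, fun σ hσ hne => ?_⟩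
  · refine le_trans (Nat.cast_le.2 (le_trans (le_of_eq ?_)
      (sum_count_le_card (F.image fun ρ => ρ - s₀) Z))) (hcardT.trans (by rw [hsplit]; linarith))
    rw [Finset.sum_image fun x _ y _ h => sub_left_injective h]
    refine Finset.sum_congr rfl fun ρ hρ => ?_
    obtain ⟨h1, h2⟩ := hF ρ hρ
    have hmem : ρ - s₀ ∈ closedBall (0 : ℂ) (A + 5 / 2) := by
      rw [mem_closedBall_zero_iff, ← abs_of_nonneg (show (0 : ℝ) ≤ A + 5 / 2 by linarith),
        ← abs_of_nonneg (norm_nonneg (ρ - s₀)), ← sq_le_sq, ← normSq_eq_norm_sq, normSq_apply,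
        sub_re, sub_im, hre, him]
      have := abs_le.1 h2
      nlinarith [h1.1, h1.2]
    rw [← hord _ hmem, hf, analyticOrderNatAt, analyticOrderNatAt,
      show (fun z => G (s₀ + z)) = G ∘ fun z => s₀ + z from rfl,
      analyticOrderAt_comp_of_deriv_ne_zero (g := fun z => s₀ + z) (z₀ := ρ - s₀) (f := G)
        (analyticAt_const.add analyticAt_id)
        (by rw [deriv_const_add_id]; exact one_ne_zero), add_sub_cancel]
  obtain ⟨Z', hZ'⟩ : ∃ Z', Z' = Z.map fun ρ => ρ + s₀ := ⟨_, rfl⟩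
  have hσA : σ ≤ A := by linarith [hσ.2]
  have hseg : ∀ u ∈ Icc σ A, ‖((u : ℂ) + c * I) - s₀‖ ≤ A + 2 := fun u hu => by
    rw [hs₀, show (u : ℂ) + c * I - ((A : ℂ) + c * I) = ((u - A : ℝ) : ℂ) by push_cast; ring,
      Complex.norm_real, Real.norm_eq_abs, abs_le]
    constructor <;> linarith [hu.1, hu.2, hσ.1]
  have hroot : ∀ ρ ∈ Z', ∀ u ∈ Icc σ A, (u : ℂ) + c * I ≠ ρ := by
    intro ρ hρ u hu h
    rw [hZ'] at hρ
    obtain ⟨x, hx, rfl⟩ := Multiset.mem_map.1 hρ
    have hx' : 0 < Z.count x := Multiset.count_pos.2 hx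
    rw [← hord x (hZ x hx)] at hx'
    have hz : f x = 0 := apply_eq_zero_of_analyticOrderNatAt_ne_zero hx'.ne'
    refine hne u hu ?_
    rw [h, add_comm]
    simpa [hf] using hz
  obtain ⟨hRi, hRb⟩ := roots_arg_le hσA Z' hroot
  have hrem : ∀ u ∈ Icc σ A, |(deriv G ((u : ℂ) + c * I) / G ((u : ℂ) + c * I)).im -
      ((Z'.map fun ρ => ((u : ℂ) + c * I - ρ)⁻¹).sum).im| ≤ K' * Real.log T := fun u hu => by
    have h1 := hlog ((u : ℂ) + c * I - s₀) (mem_closedBall_zero_iff.2 (hseg u hu))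
      (by simpa [hf] using hne u hu)
    simp only [hf, deriv_comp_const_add, add_sub_cancel] at h1
    rw [← sub_im]
    refine (abs_im_le_norm _).trans (le_trans (le_of_eq ?_) (h1.trans hKB))
    rw [hZ', Multiset.map_map]
    congr 3
    refine Multiset.map_congr rfl fun ρ _ => ?_
    simp only [Function.comp_apply]
    congr 1
    ring
  have hGc : ContinuousOn (fun u : ℝ => (u - σ) *
      (deriv G ((u : ℂ) + c * I) / G ((u : ℂ) + c * I)).im) (uIcc σ A) := fun u hu => by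
    rw [uIcc_of_le hσA] at hu
    have hm : (u : ℂ) + c * I ∈ aDomain := by
      rw [aDomain, Set.mem_ofPred_eq]; simp; linarith [hc.1]
    exact ((continuousAt_id.sub continuousAt_const).mul (Complex.continuous_im.continuousAt.comp'
      ((continuousAt_logDeriv isOpen_aDomain (hG ▸ differentiableOn_aFn a) hm
        (hne u hu)).comp' (f := fun v : ℝ => (v : ℂ) + c * I) (by fun_prop)))
      ).continuousWithinAt
  have hAσ : A - σ ≤ A + 2 := by linarith [hσ.1]
  have hdiff : |(∫ u in σ..A, ((u - σ) *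
      (deriv G ((u : ℂ) + c * I) / G ((u : ℂ) + c * I)).im -
      (u - σ) * ((Z'.map fun ρ => ((u : ℂ) + c * I - ρ)⁻¹).sum).im))| ≤
      (A + 2) ^ 2 * (K' * Real.log T) := by
    have h := intervalIntegral.norm_integral_le_of_norm_le_const (a := σ) (b := A)
      (C := (A + 2) * (K' * Real.log T)) (f := fun u : ℝ => (u - σ) *
        (deriv G ((u : ℂ) + c * I) / G ((u : ℂ) + c * I)).im -
        (u - σ) * ((Z'.map fun ρ => ((u : ℂ) + c * I - ρ)⁻¹).sum).im) fun u hu => by
      rw [uIoc_of_le hσA] at hu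
      rw [← mul_sub, Real.norm_eq_abs, abs_mul]
      exact mul_le_mul (by rw [abs_of_nonneg (by linarith [hu.1])]; linarith [hu.2])
        (hrem u ⟨hu.1.le, hu.2⟩) (abs_nonneg _) (by linarith)
    refine ((Real.norm_eq_abs _).symm.trans_le h).trans ?_
    rw [abs_of_nonneg (by linarith), sq, mul_right_comm (A + 2) (A + 2)]
    exact mul_le_mul_of_nonneg_left hAσ (by positivity)
  rw [intervalIntegral.integral_sub hGc.intervalIntegrable hRi] at hdiff
  have h2 : (A - σ) * π * Multiset.card Z' ≤ (A + 2) * π * (K' * Real.log T) := by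
    refine mul_le_mul (mul_le_mul_of_nonneg_right hAσ Real.pi_pos.le) ?_ (Nat.cast_nonneg _)
      (by positivity)
    rwa [hZ', Multiset.card_map]
  rw [abs_le] at hRb hdiff ⊢
  rw [hsplit]
  constructor <;> linarith

end FA.APoints

end
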