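import Fermat.Agent.APoints.Local
import Fermat.Agent.SecondMoment.Main

/-!
# The `a`-points of `ζ` cluster at the critical line

Littlewood's lemma on `re s = -2`, `-1` counts the `a`-points with `T < im ≤ 2T` and their mean real
part; on `re s = 1/2` the second moment of `ζ` bounds their total excess to the right
(Levinson 1975).
-/

set_option autoImplicit false

noncomputable section

namespace FA.APoints

open Complex Filter MeasureTheory Set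
open FA.LevinsonThird (littlewood_rect abs_arg_edge_le)
open scoped Real Topology

/-- The `a`-points with `T < im ≤ 2T` right of `re s = -2`. -/
def aPoints (a : ℂ) (T : ℝ) : Set ℂ :=
  {s : ℂ | riemannZeta s = a ∧ -2 ≤ s.re ∧ T < s.im ∧ s.im ≤ 2 * T}

theorem order_aFn_ne_top (a : ℂ) {s : ℂ} (hs : s ∈ aDomain) :
    analyticOrderAt (aFn a) s ≠ ⊤ := fun h => by
  obtain ⟨A, -, hA⟩ := exists_aFn_right a
  have h0 := ((differentiableOn_aFn a).analyticOnNhd isOpen_aDomain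
    ).eqOn_zero_of_preconnected_of_eventuallyEq_zero convex_aDomain.isPreconnected hs
      (analyticOrderAt_eq_top.1 h)
  have hmem : (A : ℂ) + I ∈ aDomain := by simp [aDomain]
  have := hA ((A : ℂ) + I) (by simp)
  rw [h0 hmem] at this
  norm_num at this

theorem finite_aPoints (a : ℂ) (T : ℝ) : (aPoints a T).Finite := by
  rcases le_or_gt T 0 with hT | hT
  · refine Set.Finite.subset Set.finite_empty fun s hs => ?_
    linarith [hs.2.2.1, hs.2.2.2]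
  obtain ⟨A, -, hA⟩ := exists_aFn_right a
  have hsub : (Icc (-2) A ×ℂ Icc T (2 * T) : Set ℂ) ⊆ aDomain := fun s hs => by
    rw [mem_reProdIm] at hs
    exact lt_of_lt_of_le hT hs.2.1
  refine (FA.Levinson.finite_zeros_compact isOpen_aDomain
    (isCompact_Icc.reProdIm isCompact_Icc) hsub (differentiableOn_aFn a)
    fun z hz => order_aFn_ne_top a (hsub hz)).subset fun s hs => ?_
  have h0 := (aFn_eq_zero_iff a s).2 hs.1
  refine ⟨mem_reProdIm.2 ⟨⟨hs.2.1, le_of_not_gt fun h => ?_⟩, hs.2.2.1.le, hs.2.2.2⟩, h0⟩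
  have h1 := hA s h.le
  rw [h0, zero_sub, norm_neg, norm_one] at h1
  norm_num at h1

/-- **Their number**, with multiplicity. -/
def aCount (a : ℂ) (T : ℝ) : ℕ :=
  ∑ ρ ∈ (finite_aPoints a T).toFinset, analyticOrderNatAt (fun s => riemannZeta s - a) ρ

/-- Those at distance at least `δ` from the critical line. -/
def aOffCount (a : ℂ) (δ T : ℝ) : ℕ :=
  ∑ ρ ∈ (finite_aPoints a T).toFinset.filter (fun ρ => δ ≤ |ρ.re - 1 / 2|),
    analyticOrderNatAt (fun s => riemannZeta s - a) ρ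

theorem abs_log_t_sub_le {T t : ℝ} (hT : 8 ≤ T) (h1 : T ≤ t) (h2 : t ≤ 2 * T) :
    |Real.log (t / (2 * π)) - Real.log T| ≤ 3 := by
  have l1 := Real.log_le_log (by linarith) h1
  have l2 := Real.log_le_log (show 0 < t by linarith) h2
  rw [Real.log_mul two_ne_zero (by linarith)] at l2
  have l3 : 0 ≤ Real.log (2 * π) := Real.log_nonneg (by linarith [Real.pi_gt_three])
  have l4 : Real.log (2 * π) ≤ 2 := by
    rw [Real.log_le_iff_le_exp (by positivity), show (2 : ℝ) = 1 + 1 by norm_num, Real.exp_add]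
    nlinarith [Real.exp_one_gt_d9, Real.pi_lt_d2]
  rw [Real.log_div (by linarith) (by positivity), abs_le]
  constructor <;> linarith [Real.log_two_lt_d9]

/-- **On the left** there are no `a`-points, and `log |ζ - a|` is known. -/
theorem eventually_left (a : ℂ) : ∀ᶠ T : ℝ in atTop, ∀ σ ∈ Icc (-2 : ℝ) (-1),
    ∀ t ∈ Icc T (2 * T), riemannZeta ((σ : ℂ) + t * I) ≠ a ∧
      |Real.log ‖riemannZeta ((σ : ℂ) + t * I) - a‖ - (1 / 2 - σ) * Real.log T| ≤ 112 := by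
  filter_upwards [eventually_ge_atTop (8 : ℝ),
    Real.tendsto_log_atTop.eventually_ge_atTop (Real.log (2 * ‖a‖ + 1) + 120)]
    with T hT hL σ hσ t ht
  obtain ⟨hne, hb⟩ := abs_log_norm_zeta_left hσ.1 hσ.2 (show 4 ≤ t by linarith [ht.1])
  obtain ⟨z, hz⟩ : ∃ z, z = riemannZeta ((σ : ℂ) + t * I) := ⟨_, rfl⟩
  rw [← hz] at hne hb ⊢
  have hl := abs_le.1 (abs_log_t_sub_le hT ht.1 ht.2)
  rw [abs_le] at hb
  have hla : 0 ≤ Real.log (2 * ‖a‖ + 1) := Real.log_nonneg (by linarith [norm_nonneg a])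
  have h1 : (1 / 2 - σ) * (Real.log T - 3) ≤ (1 / 2 - σ) * Real.log (t / (2 * π)) :=
    mul_le_mul_of_nonneg_left (by linarith) (by linarith [hσ.2])
  have h2 : (1 / 2 - σ) * Real.log (t / (2 * π)) ≤ (1 / 2 - σ) * (Real.log T + 3) :=
    mul_le_mul_of_nonneg_left (by linarith) (by linarith [hσ.2])
  have h3 : 3 / 2 * (Real.log T - 3) ≤ (1 / 2 - σ) * (Real.log T - 3) :=
    mul_le_mul_of_nonneg_right (by linarith [hσ.2]) (by linarith)
  have hbig : 2 * ‖a‖ + 1 ≤ ‖z‖ :=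
    (Real.log_le_log_iff (by positivity) (norm_pos_iff.2 hne)).1 (by linarith)
  have hlow := norm_sub_norm_le z a
  have hup := norm_sub_le z a
  have hz0 : 0 < ‖z‖ := norm_pos_iff.2 hne
  refine ⟨fun h => by rw [h] at hbig; linarith [norm_nonneg a], ?_⟩
  have u1 : Real.log (‖z‖ / 2) ≤ Real.log ‖z - a‖ := Real.log_le_log (by linarith) (by linarith)
  have u2 : Real.log ‖z - a‖ ≤ Real.log (‖z‖ * 2) := Real.log_le_log (by linarith) (by linarith)
  rw [Real.log_div hz0.ne' two_ne_zero] at u1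
  rw [Real.log_mul hz0.ne' two_ne_zero] at u2
  rw [abs_le]
  constructor <;> linarith [Real.log_two_lt_d9, hσ.1]

/-- **The mean square on the line.** -/
theorem exists_mean_square (a : ℂ) : ∃ C, 0 ≤ C ∧ ∀ᶠ T : ℝ in atTop,
    (∫ t in T..2 * T, ‖riemannZeta (((1 / 2 : ℝ) : ℂ) + t * I) - a‖ ^ 2) ≤
      C * (T * Real.log T) := by
  obtain ⟨C, hC⟩ := FA.SecondMoment.second_moment
  refine ⟨8 * (1 + |C|) + 2 * ‖a‖ ^ 2, by positivity, ?_⟩
  filter_upwards [eventually_ge_atTop (3 : ℝ), Real.tendsto_log_atTop.eventually_ge_atTop 1]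
    with T hT hL
  have e : ∀ t : ℝ, ((1 / 2 : ℝ) : ℂ) + t * I = 1 / 2 + t * I := fun t => by push_cast; ring
  simp only [e]
  have hc : Continuous fun t : ℝ => riemannZeta (1 / 2 + t * I) :=
    FA.SecondMoment.continuous_zeta_line
  have i1 : IntervalIntegrable (fun t : ℝ => ‖riemannZeta (1 / 2 + t * I)‖ ^ 2)
      volume 0 (2 * T) := (hc.norm.pow 2).intervalIntegrable _ _
  have hmono : (∫ t in T..2 * T, ‖riemannZeta (1 / 2 + t * I)‖ ^ 2) ≤
      ∫ t in (0 : ℝ)..2 * T, ‖riemannZeta (1 / 2 + t * I)‖ ^ 2 :=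
    intervalIntegral.integral_mono_interval (by linarith) (by linarith) le_rfl
      (Eventually.of_forall fun t => by positivity) i1
  have h2 := (abs_le.1 (hC (2 * T) (by linarith))).2
  have hl2 : 0 ≤ Real.log (2 * T) ∧ Real.log (2 * T) ≤ 2 * Real.log T := by
    rw [Real.log_mul two_ne_zero (by linarith)]
    constructor <;> linarith [Real.log_two_lt_d9, Real.log_two_gt_d9]
  have hs : √(Real.log (2 * T)) ≤ 2 * Real.log T :=
    Real.sqrt_le_iff.2 ⟨by linarith, by nlinarith [hl2.2]⟩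
  have hTT : T ≤ T * Real.log T := le_mul_of_one_le_right (by linarith) hL
  have hJ : (∫ t in (0 : ℝ)..2 * T, ‖riemannZeta (1 / 2 + t * I)‖ ^ 2) ≤
      4 * (1 + |C|) * (T * Real.log T) := by
    have a1 : C * (2 * T * √(Real.log (2 * T))) ≤ |C| * (2 * T * (2 * Real.log T)) :=
      mul_le_mul (le_abs_self C) (mul_le_mul_of_nonneg_left hs (by linarith)) (by positivity)
        (abs_nonneg C)
    have a2 : 2 * T * Real.log (2 * T) ≤ 2 * T * (2 * Real.log T) :=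
      mul_le_mul_of_nonneg_left hl2.2 (by linarith)
    linarith
  refine (intervalIntegral.integral_mono_on (by linarith)
    (((hc.sub continuous_const).norm.pow 2).intervalIntegrable _ _)
    ((((hc.norm.pow 2).intervalIntegrable _ _).const_mul 2).add
      (intervalIntegrable_const (c := 2 * ‖a‖ ^ 2))) fun t _ => ?_).trans ?_
  · refine (pow_le_pow_left₀ (norm_nonneg _) (norm_sub_le _ _) 2).trans ?_
    simp only [Pi.pow_apply]
    nlinarith [sq_nonneg (‖riemannZeta (1 / 2 + t * I)‖ - ‖a‖)]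
  · rw [intervalIntegral.integral_add (((hc.norm.pow 2).intervalIntegrable _ _).const_mul 2)
      intervalIntegrable_const, intervalIntegral.integral_const_mul,
      intervalIntegral.integral_const, smul_eq_mul]
    have h3 := mul_le_mul_of_nonneg_left hTT (show 0 ≤ 2 * ‖a‖ ^ 2 by positivity)
    simp only [Pi.pow_apply] at hmono hJ ⊢
    linarith

/-- A clean abscissa just left of the line, with nearly the same mean square. -/
theorem exists_left_of_line (a : ℂ) {T : ℝ} (hT : 0 < T) {S : Set ℝ} (hS : S.Finite) :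
    ∃ σ ∈ Ioo (1 / 4 : ℝ) (1 / 2), σ ∉ S ∧
      (∫ t in T..2 * T, ‖riemannZeta ((σ : ℂ) + t * I) - a‖ ^ 2) ≤
        (∫ t in T..2 * T, ‖riemannZeta (((1 / 2 : ℝ) : ℂ) + t * I) - a‖ ^ 2) + T := by
  obtain ⟨K, hK⟩ : ∃ K : Set ℂ, K = Icc (1 / 4 : ℝ) (1 / 2) ×ℂ Icc T (2 * T) := ⟨_, rfl⟩
  obtain ⟨g, hg⟩ : ∃ g : ℂ → ℝ, g = fun s => ‖riemannZeta s - a‖ ^ 2 := ⟨_, rfl⟩
  have hgc : ContinuousOn g K := fun s hs => by
    rw [hg]
    refine ((((differentiableAt_riemannZeta fun h => ?_).continuousAt.sub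
      continuousAt_const).norm).pow 2).continuousWithinAt
    rw [hK, mem_reProdIm, h, one_im] at hs
    linarith [hs.2.1]
  obtain ⟨δ, hδ, hu⟩ := Metric.uniformContinuousOn_iff.1
    ((hK ▸ isCompact_Icc.reProdIm isCompact_Icc : IsCompact K).uniformContinuousOn_of_continuous
      hgc) 1 one_pos
  obtain ⟨σ, ⟨hσa, hσb⟩, hσS⟩ := ((Set.Ioo_infinite
    (show max (1 / 2 - δ) (1 / 4) < (1 / 2 : ℝ) from max_lt (by linarith) (by norm_num))).sdiff
      hS).nonempty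
  rw [max_lt_iff] at hσa
  refine ⟨σ, ⟨hσa.2, hσb⟩, hσS, ?_⟩
  have hT2 : T ≤ 2 * T := by linarith
  have hmem : ∀ x ∈ Icc (1 / 4 : ℝ) (1 / 2), ∀ t ∈ uIcc T (2 * T), (x : ℂ) + t * I ∈ K :=
    fun x hx t ht => by
      rw [uIcc_of_le hT2] at ht
      rw [hK, mem_reProdIm]
      simp only [add_re, add_im, mul_re, mul_im, ofReal_re, ofReal_im, I_re, I_im, mul_zero,
        mul_one, sub_zero, add_zero, zero_add]
      exact ⟨hx, ht⟩
  have hint : ∀ x ∈ Icc (1 / 4 : ℝ) (1 / 2),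
      IntervalIntegrable (fun t : ℝ => g ((x : ℂ) + t * I)) volume T (2 * T) := fun x hx =>
    (hgc.comp (f := fun t : ℝ => (x : ℂ) + t * I) (by fun_prop)
      fun t ht => hmem x hx t ht).intervalIntegrable
  have h0 : (1 / 2 : ℝ) ∈ Icc (1 / 4 : ℝ) (1 / 2) := ⟨by norm_num, le_rfl⟩
  have hσI : σ ∈ Icc (1 / 4 : ℝ) (1 / 2) := ⟨hσa.2.le, hσb.le⟩
  have h := intervalIntegral.integral_mono_on hT2 (hint σ hσI)
    ((hint _ h0).add (intervalIntegrable_const (c := (1 : ℝ)))) fun t ht => by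
      have hd' : dist ((σ : ℂ) + t * I) (((1 / 2 : ℝ) : ℂ) + t * I) < δ := by
        rw [dist_eq_norm, add_sub_add_right_eq_sub, ← ofReal_sub, Complex.norm_real,
          Real.norm_eq_abs, abs_sub_comm, abs_of_nonneg (by linarith)]
        linarith [hσa.1]
      rw [← uIcc_of_le hT2] at ht
      have h := hu _ (hmem σ hσI t ht) _ (hmem _ h0 t ht) hd'
      rw [Real.dist_eq] at h
      linarith [(abs_lt.1 h).2]
  rw [intervalIntegral.integral_add (hint _ h0) intervalIntegrable_const,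
    intervalIntegral.integral_const, smul_eq_mul, mul_one] at h
  simp only [hg] at h
  linarith

theorem log_norm_aFn {a s : ℂ} {p q : ℝ} (hpq : ‖aScale a s‖ = Real.exp (p * s.re + q))
    (h : riemannZeta s ≠ a) :
    Real.log ‖aFn a s‖ = Real.log ‖riemannZeta s - a‖ + (p * s.re + q) := by
  rw [aFn, norm_mul, hpq, Real.log_mul (norm_ne_zero_iff.2 (sub_ne_zero.2 h)) (Real.exp_ne_zero _),
    Real.log_exp]

/-- **Littlewood's lemma for `ζ - a`**: only the left edge counts. -/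
theorem aFn_rect (a : ℂ) {A : ℝ} (hA : 6 ≤ A)
    (hright : ∀ s : ℂ, A ≤ s.re → ‖aFn a s - 1‖ ≤ 1 / 2) {σ y₁ y₂ E : ℝ}
    (hσ : σ ∈ Icc (-2 : ℝ) 1) (hy0 : 0 < y₁) (hy : y₁ < y₂)
    (hne : ∀ s : ℂ, s.re ∈ Icc σ A → s.im ∈ Icc y₁ y₂ →
      (s.re = σ ∨ s.im = y₁ ∨ s.im = y₂) → aFn a s ≠ 0)
    (hhor : ∀ y ∈ ({y₁, y₂} : Set ℝ), |∫ u in σ..A, (u - σ) * (deriv (aFn a) ((u : ℂ) + y * I) /
      aFn a ((u : ℂ) + y * I)).im| ≤ E) :
    ∃ Z : Multiset ℂ, (∀ ρ ∈ Z, ρ.re ∈ Ioo σ A ∧ ρ.im ∈ Ioo y₁ y₂) ∧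
      (∀ z : ℂ, z.re ∈ Icc σ A → z.im ∈ Icc y₁ y₂ →
        analyticOrderNatAt (aFn a) z = Z.count z) ∧
      |2 * π * (Z.map fun ρ => ρ.re - σ).sum -
          ∫ v in y₁..y₂, Real.log ‖aFn a ((σ : ℂ) + v * I)‖| ≤
        (y₂ - y₁) + (A + 2) * (2 * π) + 2 * E := by
  have hσA : σ < A := by linarith [hσ.2]
  have hball : ∀ s : ℂ, A ≤ s.re → 1 / 2 ≤ ‖aFn a s‖ ∧ ‖aFn a s‖ ≤ 3 / 2 ∧ 0 < (aFn a s).re :=
    fun s hs => by
    have h := hright s hs
    have a1 := norm_sub_norm_le (1 : ℂ) (aFn a s)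
    have a2 := norm_le_norm_add_norm_sub' (aFn a s) (1 : ℂ)
    have a3 := (abs_le.1 ((abs_re_le_norm _).trans h)).1
    rw [norm_sub_rev, norm_one] at a1
    rw [norm_one] at a2
    rw [sub_re, one_re] at a3
    exact ⟨by linarith, by linarith, by linarith⟩
  have hdom : ∀ s : ℂ, s.im ∈ Icc y₁ y₂ → s ∈ aDomain := fun s h => lt_of_lt_of_le hy0 h.1
  obtain ⟨Z, hZ, hord, hid⟩ := littlewood_rect isOpen_aDomain convex_aDomain.isPreconnected
    (differentiableOn_aFn a) hσA hy (fun s _ h2 => hdom s h2) fun s h1 h2 h3 => by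
      rcases h3 with e | e | e | e
      · exact hne s h1 h2 (Or.inl e)
      · exact fun h0 => by
          have := (hball s e.ge).1
          rw [h0, norm_zero] at this
          norm_num at this
      · exact hne s h1 h2 (Or.inr (Or.inl e))
      · exact hne s h1 h2 (Or.inr (Or.inr e))
  refine ⟨Z, hZ, hord, ?_⟩
  have hmem : ∀ v ∈ uIcc y₁ y₂, (A : ℂ) + v * I ∈ aDomain ∧
      0 < (aFn a ((A : ℂ) + v * I)).re := fun v hv => by
    rw [uIcc_of_le hy.le] at hv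
    exact ⟨hdom _ (by simpa using hv), (hball _ (by simp)).2.2⟩
  have hR := abs_arg_edge_le isOpen_aDomain (differentiableOn_aFn a) hmem
  have hL : |∫ v in y₁..y₂, Real.log ‖aFn a ((A : ℂ) + v * I)‖| ≤ y₂ - y₁ := by
    refine ((Real.norm_eq_abs _).symm.trans_le (intervalIntegral.norm_integral_le_of_norm_le_const
      (C := (1 : ℝ)) fun v _ => ?_)).trans (by rw [one_mul, abs_of_pos (by linarith)])
    obtain ⟨b1, b2, -⟩ := hball ((A : ℂ) + v * I) (by simp)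
    have l1 := Real.log_le_sub_one_of_pos (show 0 < ‖aFn a ((A : ℂ) + v * I)‖ by linarith)
    have l2 := Real.log_le_log (show (0 : ℝ) < 1 / 2 by norm_num) b1
    rw [one_div, Real.log_inv] at l2
    rw [Real.norm_eq_abs, abs_le]
    constructor <;> linarith [Real.log_two_lt_d9]
  have hR' : |(A - σ) * (∫ v in y₁..y₂,
      (deriv (aFn a) ((A : ℂ) + v * I) / aFn a ((A : ℂ) + v * I)).re)| ≤ (A + 2) * (2 * π) := by
    rw [abs_mul, abs_of_pos (show 0 < A - σ by linarith)]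
    exact mul_le_mul (by linarith [hσ.1]) hR (abs_nonneg _) (by linarith)
  have h1 := hhor y₁ (Or.inl rfl)
  have h2 := hhor y₂ (Or.inr rfl)
  rw [abs_le] at hL hR' h1 h2 ⊢
  constructor <;> linarith

theorem zeros_filter {a : ℂ} {A σ σ₀ y₁ y₂ : ℝ} (hσ : σ₀ ≤ σ) {Z W : Multiset ℂ}
    (hZ : ∀ ρ ∈ Z, ρ.re ∈ Ioo σ₀ A ∧ ρ.im ∈ Ioo y₁ y₂)
    (hordZ : ∀ z : ℂ, z.re ∈ Icc σ₀ A → z.im ∈ Icc y₁ y₂ →
      analyticOrderNatAt (aFn a) z = Z.count z)
    (hW : ∀ ρ ∈ W, ρ.re ∈ Ioo σ A ∧ ρ.im ∈ Ioo y₁ y₂)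
    (hordW : ∀ z : ℂ, z.re ∈ Icc σ A → z.im ∈ Icc y₁ y₂ →
      analyticOrderNatAt (aFn a) z = W.count z) :
    W = Z.filter fun ρ => σ < ρ.re := by
  classical
  ext z
  rw [Multiset.count_filter]
  split_ifs with h
  · by_cases hz : z.re ≤ A ∧ z.im ∈ Icc y₁ y₂
    · rw [← hordW z ⟨h.le, hz.1⟩ hz.2, ← hordZ z ⟨hσ.trans h.le, hz.1⟩ hz.2]
    · rw [Multiset.count_eq_zero.2 fun h' => hz ⟨(hW z h').1.2.le, Ioo_subset_Icc_self (hW z h').2⟩,
        Multiset.count_eq_zero.2 fun h' => hz ⟨(hZ z h').1.2.le, Ioo_subset_Icc_self (hZ z h').2⟩]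
  · exact Multiset.count_eq_zero.2 fun h' => h (hW z h').1.1

theorem sums_shift (Z : Multiset ℂ) :
    (Z.map fun ρ => ρ.re - (-2 : ℝ)).sum =
        (Z.map fun ρ => ρ.re - (-1 : ℝ)).sum + Multiset.card Z ∧
      (Z.map fun ρ => ρ.re - 1 / 2).sum =
        (Z.map fun ρ => ρ.re - (-1 : ℝ)).sum - 3 / 2 * Multiset.card Z := by
  induction Z using Multiset.induction_on with
  | empty => simp
  | cons ρ Y ih =>
    simp only [Multiset.map_cons, Multiset.sum_cons, Multiset.card_cons]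
    push_cast
    constructor <;> linarith [ih.1, ih.2]

theorem sum_abs_le_filter {σ : ℝ} (hσ : σ ≤ 1 / 2) (Z : Multiset ℂ) :
    (Z.map fun ρ => |ρ.re - 1 / 2|).sum ≤
      2 * ((Z.filter fun ρ => σ < ρ.re).map fun ρ => ρ.re - σ).sum -
        (Z.map fun ρ => ρ.re - 1 / 2).sum := by
  induction Z using Multiset.induction_on with
  | empty => simp
  | cons ρ Y ih =>
    rw [Multiset.filter_cons]
    split_ifs with h
    · simp only [Multiset.map_cons, Multiset.sum_cons, Multiset.singleton_add]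
      rcases le_total 0 (ρ.re - 1 / 2) with h' | h'
      · rw [abs_of_nonneg h']; linarith
      · rw [abs_of_nonpos h']; linarith
    · simp only [Multiset.map_cons, Multiset.sum_cons, zero_add]
      rw [abs_of_nonpos (by linarith [not_lt.1 h])]
      linarith

/-- **Splitting off the two windows.** -/
theorem aPoints_split (a : ℂ) {A T y₁ y₂ E : ℝ} (hA : 6 ≤ A) (hT : 0 < T)
    (hright : ∀ s : ℂ, A ≤ s.re → ‖aFn a s - 1‖ ≤ 1 / 2)
    (hy1 : T < y₁) (hy1' : y₁ < T + 1) (hy2' : 2 * T - 1 < y₂) (hy2 : y₂ < 2 * T) (hy : y₁ < y₂)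
    (hwin : ∀ c ∈ Icc T (2 * T), ∀ F : Finset ℂ,
      (∀ ρ ∈ F, ρ.re ∈ Icc (-2) A ∧ |ρ.im - c| ≤ 1 / 2) →
      ((∑ ρ ∈ F, analyticOrderNatAt (aFn a) ρ : ℕ) : ℝ) ≤ E)
    (hT1 : 1 ≤ T) {Z : Multiset ℂ}
    (hZ : ∀ ρ ∈ Z, ρ.re ∈ Ioo (-2) A ∧ ρ.im ∈ Ioo y₁ y₂)
    (hord : ∀ z : ℂ, z.re ∈ Icc (-2) A → z.im ∈ Icc y₁ y₂ →
      analyticOrderNatAt (aFn a) z = Z.count z) :
    ((Multiset.card Z : ℝ) ≤ aCount a T ∧ (aCount a T : ℝ) ≤ Multiset.card Z + 2 * E) ∧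
      ∀ δ : ℝ, δ * aOffCount a δ T ≤
        (Z.map fun ρ => |ρ.re - 1 / 2|).sum + 2 * ((A + 3) * E) := by
  classical
  obtain ⟨F, hF⟩ : ∃ F, F = (finite_aPoints a T).toFinset := ⟨_, rfl⟩
  obtain ⟨m, hm⟩ : ∃ m : ℂ → ℕ,
      m = fun ρ => analyticOrderNatAt (fun s => riemannZeta s - a) ρ := ⟨_, rfl⟩
  have hFmem : ∀ ρ, ρ ∈ F ↔ riemannZeta ρ = a ∧ -2 ≤ ρ.re ∧ T < ρ.im ∧ ρ.im ≤ 2 * T := fun ρ => by
    rw [hF, Set.Finite.mem_toFinset]
    rfl
  have hre : ∀ ρ ∈ F, ρ.re ≤ A := fun ρ hρ => le_of_not_gt fun h => by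
    have h1 := hright ρ h.le
    rw [(aFn_eq_zero_iff a ρ).2 ((hFmem ρ).1 hρ).1, zero_sub, norm_neg, norm_one] at h1
    norm_num at h1
  have hm' : ∀ ρ ∈ F, m ρ = analyticOrderNatAt (aFn a) ρ := fun ρ hρ => by
    rw [hm, analyticOrderNatAt_aFn a (show ρ ∈ aDomain from hT.trans ((hFmem ρ).1 hρ).2.2.1)]
  obtain ⟨M, hM⟩ : ∃ M, M = F.filter fun ρ => y₁ < ρ.im ∧ ρ.im < y₂ := ⟨_, rfl⟩
  obtain ⟨W, hW⟩ : ∃ W, W = F.filter fun ρ => ¬(y₁ < ρ.im ∧ ρ.im < y₂) := ⟨_, rfl⟩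
  have hMZ : M = Z.toFinset := by
    ext z
    rw [hM, Finset.mem_filter, Multiset.mem_toFinset]
    constructor
    · rintro ⟨h1, h2, h3⟩
      refine Multiset.count_pos.1 (Nat.pos_of_ne_zero fun h => ?_)
      have hd : z ∈ aDomain := hT.trans ((hFmem z).1 h1).2.2.1
      rw [← hord z ⟨((hFmem z).1 h1).2.1, hre z h1⟩ ⟨h2.le, h3.le⟩, analyticOrderNatAt,
        ENat.toNat_eq_zero] at h
      exact h.elim (((differentiableOn_aFn a).analyticAt (isOpen_aDomain.mem_nhds hd)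
        ).analyticOrderAt_ne_zero.2 ((aFn_eq_zero_iff a z).2 ((hFmem z).1 h1).1))
        (order_aFn_ne_top a hd)
    · intro h
      obtain ⟨⟨h1, h2⟩, h3, h4⟩ := hZ z h
      refine ⟨(hFmem z).2 ⟨(aFn_eq_zero_iff a z).1 ?_, h1.le, by linarith, by linarith⟩, h3, h4⟩
      have hc : 0 < Z.count z := Multiset.count_pos.2 h
      rw [← hord z ⟨h1.le, h2.le⟩ ⟨h3.le, h4.le⟩] at hc
      exact apply_eq_zero_of_analyticOrderNatAt_ne_zero hc.ne'
  have hMm : ∀ ρ ∈ M, m ρ = Z.count ρ := fun ρ hρ => by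
    rw [hM, Finset.mem_filter] at hρ
    rw [hm' ρ hρ.1, hord ρ ⟨((hFmem ρ).1 hρ.1).2.1, hre ρ hρ.1⟩ ⟨hρ.2.1.le, hρ.2.2.le⟩]
  have hWb : ((∑ ρ ∈ W, m ρ : ℕ) : ℝ) ≤ 2 * E := by
    obtain ⟨E₁, hE₁⟩ : ∃ V, V = W.filter fun ρ => ρ.im ≤ y₁ := ⟨_, rfl⟩
    obtain ⟨E₂, hE₂⟩ : ∃ V, V = W.filter fun ρ => ¬ρ.im ≤ y₁ := ⟨_, rfl⟩
    have hWF : ∀ ρ ∈ W, ρ ∈ F := fun ρ hρ => by rw [hW] at hρ; exact Finset.mem_of_mem_filter _ hρ
    have h1 := hwin (T + 1 / 2) ⟨by linarith, by linarith⟩ E₁ fun ρ hρ => by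
      rw [hE₁, Finset.mem_filter] at hρ
      obtain ⟨-, b, c, -⟩ := (hFmem ρ).1 (hWF ρ hρ.1)
      exact ⟨⟨b, hre ρ (hWF ρ hρ.1)⟩, abs_le.2 ⟨by linarith, by linarith [hρ.2]⟩⟩
    have h2 := hwin (2 * T - 1 / 2) ⟨by linarith, by linarith⟩ E₂ fun ρ hρ => by
      rw [hE₂, Finset.mem_filter, not_le] at hρ
      obtain ⟨-, b, -, d⟩ := (hFmem ρ).1 (hWF ρ hρ.1)
      have h' := hρ.1
      rw [hW, Finset.mem_filter] at h'
      exact ⟨⟨b, hre ρ (hWF ρ hρ.1)⟩,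
        abs_le.2 ⟨by linarith [le_of_not_gt fun e => h'.2 ⟨hρ.2, e⟩], by linarith⟩⟩
    rw [Finset.sum_congr rfl fun ρ hρ => hm' ρ (hWF ρ hρ),
      ← Finset.sum_filter_add_sum_filter_not W (fun ρ => ρ.im ≤ y₁), ← hE₁, ← hE₂]
    push_cast at h1 h2 ⊢
    linarith
  refine ⟨?_, fun δ => ?_⟩
  · have hcard : (∑ ρ ∈ M, m ρ) = Multiset.card Z := by
      rw [Finset.sum_congr rfl hMm, hMZ, Multiset.toFinset_sum_count_eq]
    have e : aCount a T = Multiset.card Z + ∑ ρ ∈ W, m ρ := by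
      rw [aCount, ← hF, ← hcard, hM, hW, Finset.sum_filter_add_sum_filter_not, hm]
    rw [e, Nat.cast_add]
    constructor <;> linarith [(∑ ρ ∈ W, m ρ).cast_nonneg (α := ℝ)]
  · have hnn : ∀ ρ, 0 ≤ (m ρ : ℝ) * |ρ.re - 1 / 2| := fun ρ => by positivity
    have h1 : δ * aOffCount a δ T ≤ ∑ ρ ∈ F, (m ρ : ℝ) * |ρ.re - 1 / 2| := by
      rw [aOffCount, ← hF, Nat.cast_sum, Finset.mul_sum]
      refine (Finset.sum_le_sum fun ρ hρ => ?_).trans
        (Finset.sum_le_sum_of_subset_of_nonneg (Finset.filter_subset _ F) fun ρ _ _ => hnn ρ)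
      rw [hm, mul_comm]
      exact mul_le_mul_of_nonneg_left (Finset.mem_filter.1 hρ).2 (Nat.cast_nonneg _)
    have h2 : ∑ ρ ∈ M, (m ρ : ℝ) * |ρ.re - 1 / 2| = (Z.map fun ρ => |ρ.re - 1 / 2|).sum := by
      rw [Finset.sum_multiset_map_count, ← hMZ]
      exact Finset.sum_congr rfl fun ρ hρ => by rw [hMm ρ hρ, nsmul_eq_mul]
    have h3 : ∑ ρ ∈ W, (m ρ : ℝ) * |ρ.re - 1 / 2| ≤ (A + 3) * (2 * E) := by
      refine (Finset.sum_le_sum (g := fun ρ => (A + 3) * (m ρ : ℝ)) fun ρ hρ => ?_).trans ?_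
      rotate_left
      · rw [← Finset.mul_sum, ← Nat.cast_sum]
        exact mul_le_mul_of_nonneg_left hWb (by linarith)
      rw [hW, Finset.mem_filter] at hρ
      rw [mul_comm]
      refine mul_le_mul_of_nonneg_right (abs_le.2 ⟨?_, ?_⟩) (Nat.cast_nonneg _) <;>
        linarith [((hFmem ρ).1 hρ.1).2.1, hre ρ hρ.1]
    rw [← Finset.sum_filter_add_sum_filter_not F (fun ρ => y₁ < ρ.im ∧ ρ.im < y₂), ← hM, ← hW]
      at h1
    linarith

/-- **The left edge on the line.** -/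
theorem integral_log_line_le {a : ℂ} {σ T y₁ y₂ C : ℝ} (hy1 : T ≤ y₁) (hy : y₁ ≤ y₂)
    (hy2 : y₂ ≤ 2 * T) (hT : 0 < T) (hC : 0 ≤ C) (hL : 1 ≤ Real.log T)
    (hne : ∀ t ∈ Icc y₁ y₂, riemannZeta ((σ : ℂ) + t * I) ≠ a)
    (hI : (∫ t in T..2 * T, ‖riemannZeta ((σ : ℂ) + t * I) - a‖ ^ 2) ≤ C * (T * Real.log T)) :
    ∫ t in y₁..y₂, Real.log ‖riemannZeta ((σ : ℂ) + t * I) - a‖ ≤
      T / 2 * Real.log (Real.log T) + C * T := by
  obtain ⟨F, hF⟩ : ∃ F : ℝ → ℂ, F = fun t : ℝ => riemannZeta ((σ : ℂ) + t * I) - a := ⟨_, rfl⟩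
  have hFc : ContinuousOn F (uIcc T (2 * T)) := fun t ht => by
    rw [uIcc_of_le (by linarith)] at ht
    rw [hF]
    refine ((ContinuousAt.comp' (differentiableAt_riemannZeta fun h => ?_).continuousAt
      (by fun_prop)).sub continuousAt_const).continuousWithinAt
    have := congrArg Complex.im h
    simp at this
    linarith [ht.1]
  have hI' : (∫ t in T..2 * T, ‖F t‖ ^ 2) ≤ C * (T * Real.log T) := hF ▸ hI
  have hne' : ∀ t ∈ Icc y₁ y₂, F t ≠ 0 := fun t ht => hF ▸ sub_ne_zero.2 (hne t ht)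
  rw [show (fun t : ℝ => Real.log ‖riemannZeta ((σ : ℂ) + t * I) - a‖) =
    fun t => Real.log ‖F t‖ by rw [hF]]
  obtain ⟨L, hLd⟩ : ∃ L, L = Real.log T := ⟨_, rfl⟩
  rw [← hLd] at hL hI' ⊢
  have hL0 : 0 < L := by linarith
  have hsub : uIcc y₁ y₂ ⊆ uIcc T (2 * T) := by
    rw [uIcc_of_le hy, uIcc_of_le (by linarith)]
    exact Icc_subset_Icc hy1 hy2
  have hsq : IntervalIntegrable (fun t => ‖F t‖ ^ 2) volume T (2 * T) :=
    (hFc.norm.pow 2).intervalIntegrable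
  have hsq' : IntervalIntegrable (fun t => ‖F t‖ ^ 2) volume y₁ y₂ :=
    ((hFc.mono hsub).norm.pow 2).intervalIntegrable
  have hlog : IntervalIntegrable (fun t => Real.log ‖F t‖) volume y₁ y₂ :=
    ((hFc.mono hsub).norm.log fun t ht => norm_ne_zero_iff.2
      (hne' t (by rwa [uIcc_of_le hy] at ht))).intervalIntegrable
  have h1 := intervalIntegral.integral_mono_on hy hlog
    ((intervalIntegrable_const (c := (Real.log L - 1) / 2)).add
      (hsq'.const_mul (1 / (2 * L)))) fun t ht => by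
    have hx : 0 < ‖F t‖ ^ 2 := by
      have := norm_pos_iff.2 (hne' t ht)
      positivity
    have h2 := Real.log_le_sub_one_of_pos (div_pos hx hL0)
    rw [Real.log_div hx.ne' hL0.ne', Real.log_pow, Nat.cast_ofNat] at h2
    rw [show 1 / (2 * L) * ‖F t‖ ^ 2 = ‖F t‖ ^ 2 / L / 2 by ring]
    linarith
  rw [intervalIntegral.integral_add intervalIntegrable_const (hsq'.const_mul _),
    intervalIntegral.integral_const, intervalIntegral.integral_const_mul, smul_eq_mul] at h1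
  have h2 : (∫ t in y₁..y₂, ‖F t‖ ^ 2) ≤ ∫ t in T..2 * T, ‖F t‖ ^ 2 :=
    intervalIntegral.integral_mono_interval hy1 hy hy2
      (Eventually.of_forall fun t => by positivity) hsq
  have h3 := mul_le_mul_of_nonneg_left (h2.trans hI') (show 0 ≤ 1 / (2 * L) by positivity)
  rw [show 1 / (2 * L) * (C * (T * L)) = C * T / 2 by field_simp] at h3
  have h4 : (y₂ - y₁) * ((Real.log L - 1) / 2) ≤ T * (Real.log L / 2) :=
    (mul_le_mul_of_nonneg_left (by linarith) (by linarith)).trans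
      (mul_le_mul_of_nonneg_right (by linarith) (by linarith [Real.log_nonneg hL]))
  nlinarith

/-- The normalisation on an edge. -/
theorem integral_log_aFn {a : ℂ} {p q : ℝ} (hsc : ∀ s, ‖aScale a s‖ = Real.exp (p * s.re + q))
    {σ y₁ y₂ : ℝ} (hy0 : 0 < y₁) (hy : y₁ ≤ y₂)
    (hl : ∀ t ∈ Icc y₁ y₂, aFn a ((σ : ℂ) + t * I) ≠ 0) :
    IntervalIntegrable (fun v : ℝ => Real.log ‖riemannZeta ((σ : ℂ) + v * I) - a‖)
        volume y₁ y₂ ∧
      ∫ v in y₁..y₂, Real.log ‖aFn a ((σ : ℂ) + v * I)‖ =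
        (∫ v in y₁..y₂, Real.log ‖riemannZeta ((σ : ℂ) + v * I) - a‖) +
          (y₂ - y₁) * (p * σ + q) := by
  have hne : ∀ v ∈ uIcc y₁ y₂, riemannZeta ((σ : ℂ) + v * I) ≠ a := fun v hv h => by
    rw [uIcc_of_le hy] at hv
    exact hl v hv ((aFn_eq_zero_iff a _).2 h)
  have hi : IntervalIntegrable (fun v : ℝ => Real.log ‖riemannZeta ((σ : ℂ) + v * I) - a‖)
      volume y₁ y₂ := by
    refine ContinuousOn.intervalIntegrable fun v hv =>
      ((((ContinuousAt.comp' (f := fun u : ℝ => (σ : ℂ) + u * I)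
        (differentiableAt_riemannZeta fun h => ?_).continuousAt
        (by fun_prop)).sub continuousAt_const).norm).log
        (norm_ne_zero_iff.2 (sub_ne_zero.2 (hne v hv)))).continuousWithinAt
    rw [uIcc_of_le hy] at hv
    have := congrArg Complex.im h
    simp at this
    linarith [hv.1]
  refine ⟨hi, ?_⟩
  rw [intervalIntegral.integral_congr (g := fun v : ℝ =>
    Real.log ‖riemannZeta ((σ : ℂ) + v * I) - a‖ + (p * σ + q)) fun v hv => ?_,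
    intervalIntegral.integral_add hi intervalIntegrable_const, intervalIntegral.integral_const,
    smul_eq_mul]
  rw [log_norm_aFn (hsc _) (hne v hv)]
  simp

/-- **The left edges.** -/
theorem abs_left_edge_le {a : ℂ} {p q : ℝ} (hp0 : 0 ≤ p) (hp1 : p ≤ 1)
    (hsc : ∀ s, ‖aScale a s‖ = Real.exp (p * s.re + q)) {k T L y₁ y₂ : ℝ}
    (hk : k ∈ Icc (1 : ℝ) 2) (hy1 : T ≤ y₁) (hy2 : y₂ ≤ 2 * T) (hy : y₁ < y₂)
    (hlen : T - 2 ≤ y₂ - y₁) (hlen' : y₂ - y₁ ≤ T) (hL0 : 0 ≤ L) (hLT : L ≤ T)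
    (hl : ∀ t ∈ Icc y₁ y₂, aFn a (((-k : ℝ) : ℂ) + t * I) ≠ 0)
    (hb : ∀ t ∈ Icc T (2 * T), |Real.log ‖riemannZeta (((-k : ℝ) : ℂ) + t * I) - a‖ -
      (1 / 2 - -k) * L| ≤ 112) :
    |(∫ v in y₁..y₂, Real.log ‖aFn a (((-k : ℝ) : ℂ) + v * I)‖) - (1 / 2 + k) * (T * L)| ≤
      (120 + |q|) * T := by
  obtain ⟨hi, he⟩ := integral_log_aFn hsc (by linarith) hy.le hl
  have h1 := intervalIntegral.norm_integral_le_of_norm_le_const (a := y₁) (b := y₂)
    (C := (112 : ℝ)) (f := fun v : ℝ =>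
      Real.log ‖riemannZeta (((-k : ℝ) : ℂ) + v * I) - a‖ - (1 / 2 + k) * L) fun v hv => by
    rw [uIoc_of_le hy.le] at hv
    have h := hb v ⟨by linarith [hv.1], by linarith [hv.2]⟩
    rwa [sub_neg_eq_add] at h
  rw [intervalIntegral.integral_sub hi intervalIntegrable_const, intervalIntegral.integral_const,
    smul_eq_mul, Real.norm_eq_abs, abs_of_pos (show 0 < y₂ - y₁ by linarith)] at h1
  rw [he]
  have h2 : |(y₂ - y₁) * (p * -k + q)| ≤ T * (2 + |q|) := by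
    rw [abs_mul, abs_of_pos (show 0 < y₂ - y₁ by linarith)]
    refine mul_le_mul hlen' (abs_le.2 ⟨?_, ?_⟩) (abs_nonneg _) (by linarith) <;>
      nlinarith [le_abs_self q, neg_abs_le q, hk.1, hk.2]
  have h3 : 0 ≤ (1 / 2 + k) * L * (T - (y₂ - y₁)) ∧
      (1 / 2 + k) * L * (T - (y₂ - y₁)) ≤ 5 * T := by
    refine ⟨mul_nonneg (mul_nonneg (by linarith [hk.1]) hL0) (by linarith), ?_⟩
    refine (mul_le_mul (mul_le_mul_of_nonneg_right (show 1 / 2 + k ≤ 5 / 2 by linarith [hk.2])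
      hL0) (show T - (y₂ - y₁) ≤ 2 by linarith) (by linarith) (by linarith)).trans ?_
    linarith
  have h4 : (y₂ - y₁) * 112 ≤ T * 112 := by linarith
  rw [abs_le] at h1 h2 ⊢
  constructor <;> linarith

theorem edges_arith {T L B E D N S I₁ I₂ : ℝ} (hT : 0 ≤ T) (hD : 0 ≤ D)
    (h1 : |2 * π * S - I₁| ≤ E) (h2 : |2 * π * (S + N) - I₂| ≤ E)
    (e1 : |I₁ - (1 / 2 + 1) * (T * L)| ≤ B) (e2 : |I₂ - (1 / 2 + 2) * (T * L)| ≤ B)
    (hE : E + B ≤ D * T) :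
    |N - T * L / (2 * π)| ≤ D * T ∧ |2 * π * (S - 3 / 2 * N)| ≤ 5 * (D * T) := by
  rw [abs_le] at h1 h2 e1 e2
  have h : |2 * π * N - T * L| ≤ 2 * (D * T) := by rw [abs_le]; constructor <;> linarith
  refine ⟨?_, ?_⟩
  · have hDT := mul_nonneg (mul_nonneg hD hT) (show 0 ≤ π - 1 by linarith [Real.pi_gt_three])
    rw [show N - T * L / (2 * π) = (2 * π * N - T * L) / (2 * π) by field_simp, abs_div,
      abs_of_pos (show 0 < 2 * π by positivity), div_le_iff₀ (by positivity)]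
    linarith
  · rw [abs_le] at h ⊢
    constructor <;> linarith

theorem line_arith {T W Q D E R I r q Δ : ℝ} (h : R - (I + r) ≤ E)
    (hI : I ≤ W + (Q + 1) * T) (hr : r ≤ T * (1 + |q|) ∧ E ≤ Δ)
    (hΔ : Δ + T * (1 + |q|) ≤ (D + 1) * T) : R ≤ W + (Q + 1) * T + (D + 1) * T := by
  linarith [hr.1, hr.2]

/-- The bookkeeping. -/
theorem aPoints_arith {T L l K A D Q : ℝ} {N c S X R o : ℝ} (hA : 6 ≤ A) (hK : 0 ≤ K)
    (hT : 0 ≤ T) (hLT : L ≤ T) (hl : 1 ≤ l) (hD : 0 ≤ D) (hQ : 0 ≤ Q)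
    (hR : |2 * π * (S - 3 / 2 * N)| ≤ 5 * (D * T)) (hX : 0 ≤ X)
    (hX' : X ≤ 2 * R - (S - 3 / 2 * N))
    (hRb : 2 * π * R ≤ T / 2 * l + (Q + 1) * T + (D + 1) * T)
    (hN : |N - T * L / (2 * π)| ≤ D * T) (hc1 : N ≤ c) (hc2 : c ≤ N + 2 * (K * L))
    (ho : o ≤ X + 2 * ((A + 3) * (K * L))) :
    |c - T / (2 * π) * L| ≤ (6 * D + 2 * (A + 4) * K + Q + 10) * T ∧
      o ≤ (6 * D + 2 * (A + 4) * K + Q + 10) * T * l := by
  have hKT : K * L ≤ K * T := mul_le_mul_of_nonneg_left hLT hK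
  have hK2 : 0 ≤ K * T := mul_nonneg hK hT
  have hDT : 0 ≤ D * T := mul_nonneg hD hT
  have hQT : 0 ≤ Q * T := mul_nonneg hQ hT
  have hAK : 0 ≤ A * (K * T) := mul_nonneg (by linarith) hK2
  refine ⟨?_, ?_⟩
  · rw [show T / (2 * π) * L = T * L / (2 * π) by ring]
    rw [abs_le] at hN ⊢
    constructor <;> linarith
  · have h3 := mul_le_mul_of_nonneg_left hX' Real.pi_pos.le
    have h5 := mul_le_mul_of_nonneg_right (show (1 : ℝ) ≤ π by linarith [Real.pi_gt_three]) hX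
    have h6 : (6 * D + 2 * (A + 4) * K + Q + 2) * T ≤
        (6 * D + 2 * (A + 4) * K + Q + 2) * T * l :=
      le_mul_of_one_le_right (mul_nonneg (by positivity) hT) hl
    have h7 : 0 ≤ T * l := mul_nonneg hT (by linarith)
    have h8 := mul_le_mul_of_nonneg_left hKT (show 0 ≤ A + 3 by linarith)
    linarith [(abs_le.1 hR).1]

/-- **The excess to the right of the line.** -/
theorem right_excess_le {a : ℂ} {p q σ T L Q D E y₁ y₂ R : ℝ} (hp0 : 0 ≤ p) (hp1 : p ≤ 1)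
    (hsc : ∀ s, ‖aScale a s‖ = Real.exp (p * s.re + q)) (hQ : 0 ≤ Q) (hy1 : T ≤ y₁)
    (hy : y₁ < y₂) (hy2 : y₂ ≤ 2 * T) (hlen : y₂ - y₁ ≤ T) (hT : 0 < T)
    (hσ : σ ∈ Icc (-1 : ℝ) 1) (hLd : L = Real.log T) (hL : 1 ≤ L)
    (hne : ∀ t ∈ Icc y₁ y₂, aFn a ((σ : ℂ) + t * I) ≠ 0)
    (hms : (∫ t in T..2 * T, ‖riemannZeta (((1 / 2 : ℝ) : ℂ) + t * I) - a‖ ^ 2) ≤ Q * (T * L))
    (hσI : (∫ t in T..2 * T, ‖riemannZeta ((σ : ℂ) + t * I) - a‖ ^ 2) ≤
      (∫ t in T..2 * T, ‖riemannZeta (((1 / 2 : ℝ) : ℂ) + t * I) - a‖ ^ 2) + T)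
    (hR : 2 * π * R - ∫ v in y₁..y₂, Real.log ‖aFn a ((σ : ℂ) + v * I)‖ ≤ E)
    (hE : E ≤ (D - 120 - |q|) * T) :
    2 * π * R ≤ T / 2 * Real.log L + (Q + 1) * T + (D + 1) * T := by
  obtain ⟨-, he⟩ := integral_log_aFn hsc (show 0 < y₁ by linarith) hy.le hne
  have hms' : (∫ t in T..2 * T, ‖riemannZeta ((σ : ℂ) + t * I) - a‖ ^ 2) ≤
      (Q + 1) * (T * L) := by
    refine hσI.trans ((add_le_add hms le_rfl).trans ?_)
    rw [add_one_mul]
    exact add_le_add le_rfl (le_mul_of_one_le_right (by linarith) hL)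
  have hline := integral_log_line_le hy1 hy.le hy2 hT (by linarith)
    (show 1 ≤ Real.log T by linarith)
    (fun t ht h => hne t ht ((aFn_eq_zero_iff a _).2 h)) (hLd ▸ hms')
  rw [← hLd] at hline
  rw [he] at hR
  refine line_arith (Δ := (D - 120 - |q|) * T) (q := q) hR hline ⟨?_, hE⟩ (by linarith)
  refine (le_abs_self _).trans ?_
  rw [abs_mul, abs_of_pos (show 0 < y₂ - y₁ by linarith)]
  refine mul_le_mul hlen (abs_le.2 ⟨?_, ?_⟩) (abs_nonneg _) (by linarith) <;>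
    nlinarith [le_abs_self q, neg_abs_le q, hσ.1, hσ.2]

/-- **The count and the clustering.** -/
theorem exists_aPoints_main (a : ℂ) : ∃ C, 0 ≤ C ∧ ∀ᶠ T : ℝ in atTop,
    |(aCount a T : ℝ) - T / (2 * π) * Real.log T| ≤ C * T ∧
      ∀ δ : ℝ, δ * aOffCount a δ T ≤ C * T * Real.log (Real.log T) := by
  obtain ⟨A, hA, hright⟩ := exists_aFn_right a
  obtain ⟨K, hK, hloc⟩ := exists_aFn_local a hA hright
  obtain ⟨Q, hQ, hms⟩ := exists_mean_square a
  obtain ⟨p, q, hp0, hp1, hsc⟩ := exists_norm_aScale a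
  obtain ⟨D, hD⟩ : ∃ D, D = 120 + |q| + (A + 2) * (2 * π) + 2 * K + 5 := ⟨_, rfl⟩
  have hD0 : 0 ≤ D := by rw [hD]; positivity
  obtain ⟨C, hC⟩ : ∃ C, C = 6 * D + 2 * (A + 4) * K + Q + 10 := ⟨_, rfl⟩
  refine ⟨C, by rw [hC]; positivity, ?_⟩
  filter_upwards [hloc, hms, eventually_left a, eventually_ge_atTop (2 * A + 20),
    Real.tendsto_log_atTop.eventually_ge_atTop (Real.exp 1)] with T hloc hms hleft hT hLe
  obtain ⟨L, hLd⟩ : ∃ L, L = Real.log T := ⟨_, rfl⟩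
  rw [← hLd] at hloc hms hleft hLe ⊢
  have he := Real.exp_one_gt_d9
  have hlL : 1 ≤ Real.log L := (Real.le_log_iff_exp_le (by linarith)).2 hLe
  have hLT : L ≤ T := hLd ▸ Real.log_le_self (by linarith)
  have hfin : {z | z ∈ (Icc (-2) A ×ℂ Icc T (2 * T) : Set ℂ) ∧ aFn a z = 0}.Finite :=
    FA.Levinson.finite_zeros_compact isOpen_aDomain (isCompact_Icc.reProdIm isCompact_Icc)
      (fun s hs => lt_of_lt_of_le (show (0 : ℝ) < T by linarith) (mem_reProdIm.1 hs).2.1)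
      (differentiableOn_aFn a) fun z hz => order_aFn_ne_top a
        (lt_of_lt_of_le (show (0 : ℝ) < T by linarith) (mem_reProdIm.1 hz).2.1)
  obtain ⟨y₁, ⟨hy1, hy1'⟩, hy1S⟩ := ((Set.Ioo_infinite (show T < T + 1 by linarith)).sdiff
    (hfin.image Complex.im)).nonempty
  obtain ⟨y₂, ⟨hy2', hy2⟩, hy2S⟩ := ((Set.Ioo_infinite
    (show 2 * T - 1 < 2 * T by linarith)).sdiff (hfin.image Complex.im)).nonempty
  have hy : y₁ < y₂ := by linarith
  obtain ⟨σ, ⟨hσa, hσb⟩, hσS, hσI⟩ :=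
    exists_left_of_line a (show 0 < T by linarith) (hfin.image Complex.re)
  have hne : ∀ σ₀ : ℝ, -2 ≤ σ₀ →
      (∀ t ∈ Icc y₁ y₂, aFn a ((σ₀ : ℂ) + t * I) ≠ 0) → ∀ s : ℂ, s.re ∈ Icc σ₀ A →
      s.im ∈ Icc y₁ y₂ → (s.re = σ₀ ∨ s.im = y₁ ∨ s.im = y₂) → aFn a s ≠ 0 := by
    intro σ₀ h0 hl s h1 h2 h3 h4
    have hmem : s ∈ (Icc (-2) A ×ℂ Icc T (2 * T) : Set ℂ) :=
      mem_reProdIm.2 ⟨⟨h0.trans h1.1, h1.2⟩, by linarith [h2.1], by linarith [h2.2]⟩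
    rcases h3 with e | e | e
    · exact hl s.im h2 (by rwa [← e, Complex.re_add_im])
    · exact hy1S ⟨s, ⟨hmem, h4⟩, e⟩
    · exact hy2S ⟨s, ⟨hmem, h4⟩, e⟩
  have hTm : ∀ t ∈ Icc y₁ y₂, t ∈ Icc T (2 * T) := fun t ht =>
    ⟨by linarith [ht.1], by linarith [ht.2]⟩
  have hleft0 : ∀ σ₀ ∈ Icc (-2 : ℝ) (-1), ∀ t ∈ Icc y₁ y₂, aFn a ((σ₀ : ℂ) + t * I) ≠ 0 :=
    fun σ₀ h t ht h0 => (hleft σ₀ h t (hTm t ht)).1 ((aFn_eq_zero_iff a _).1 h0)
  have hσne : ∀ t ∈ Icc y₁ y₂, aFn a ((σ : ℂ) + t * I) ≠ 0 := fun t ht h0 => hσS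
    ⟨(σ : ℂ) + t * I, ⟨mem_reProdIm.2 ⟨by simp; constructor <;> linarith,
      by simpa using hTm t ht⟩, h0⟩, by simp⟩
  have rect : ∀ σ₀ : ℝ, -2 ≤ σ₀ → σ₀ ≤ 1 →
      (∀ t ∈ Icc y₁ y₂, aFn a ((σ₀ : ℂ) + t * I) ≠ 0) →
      ∃ Z : Multiset ℂ, (∀ ρ ∈ Z, ρ.re ∈ Ioo σ₀ A ∧ ρ.im ∈ Ioo y₁ y₂) ∧
        (∀ z : ℂ, z.re ∈ Icc σ₀ A → z.im ∈ Icc y₁ y₂ →
          analyticOrderNatAt (aFn a) z = Z.count z) ∧
        |2 * π * (Z.map fun ρ => ρ.re - σ₀).sum -
          ∫ v in y₁..y₂, Real.log ‖aFn a ((σ₀ : ℂ) + v * I)‖| ≤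
          (y₂ - y₁) + (A + 2) * (2 * π) + 2 * (K * L) := fun σ₀ h0 h1 hl =>
    aFn_rect a hA hright ⟨h0, h1⟩ (by linarith) hy (hne σ₀ h0 hl) fun y hy' => by
      have hyI : y ∈ Icc y₁ y₂ := by
        rcases hy' with rfl | rfl <;> constructor <;> linarith
      refine (hloc y (hTm y hyI)).2 σ₀ ⟨h0, h1⟩ fun u hu => hne σ₀ h0 hl _ (by simpa using hu)
        (by simpa using hyI) ?_
      rcases hy' with rfl | rfl <;> simp
  obtain ⟨Z, hZ, hord, hS2⟩ := rect (-2) le_rfl (by norm_num)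
    (hleft0 (-2) ⟨le_rfl, by norm_num⟩)
  obtain ⟨Z₁, hZ₁, hord₁, hS1⟩ := rect (-1) (by norm_num) (by norm_num)
    (hleft0 (-1) ⟨by norm_num, le_rfl⟩)
  obtain ⟨Z₀, hZ₀, hord₀, hS0⟩ := rect σ (by linarith) (by linarith) hσne
  have hall : ∀ ρ ∈ Z, -1 < ρ.re := fun ρ hρ => by
    obtain ⟨⟨h1, h2⟩, h3, h4⟩ := hZ ρ hρ
    refine lt_of_not_ge fun h => ?_
    have hz : 0 < Z.count ρ := Multiset.count_pos.2 hρ
    rw [← hord ρ ⟨h1.le, h2.le⟩ ⟨h3.le, h4.le⟩] at hz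
    have := apply_eq_zero_of_analyticOrderNatAt_ne_zero hz.ne'
    rw [← Complex.re_add_im ρ] at this
    exact hleft0 ρ.re ⟨h1.le, h⟩ ρ.im ⟨h3.le, h4.le⟩ this
  rw [zeros_filter (show (-2 : ℝ) ≤ -1 by norm_num) hZ hord hZ₁ hord₁,
    Multiset.filter_eq_self.2 hall] at hS1
  rw [zeros_filter (show (-2 : ℝ) ≤ σ by linarith) hZ hord hZ₀ hord₀] at hS0
  have hΔ : T - 2 ≤ y₂ - y₁ ∧ y₂ - y₁ ≤ T := ⟨by linarith, by linarith⟩
  have hedge : ∀ k ∈ Icc (1 : ℝ) 2,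
      |(∫ v in y₁..y₂, Real.log ‖aFn a (((-k : ℝ) : ℂ) + v * I)‖) - (1 / 2 + k) * (T * L)| ≤
        (120 + |q|) * T := fun k hk =>
    have hk' : -k ∈ Icc (-2 : ℝ) (-1) := ⟨by linarith [hk.2], by linarith [hk.1]⟩
    abs_left_edge_le hp0 hp1 hsc hk hy1.le hy2.le hy hΔ.1 hΔ.2 (by linarith) hLT
      (hleft0 (-k) hk') fun t ht => (hleft (-k) hk' t ht).2
  have hE : (y₂ - y₁) + (A + 2) * (2 * π) + 2 * (K * L) ≤ (D - 120 - |q|) * T := by
    have := mul_le_mul_of_nonneg_left hLT hK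
    have h6 : (A + 2) * (2 * π) * 1 ≤ (A + 2) * (2 * π) * T :=
      mul_le_mul_of_nonneg_left (by linarith) (by positivity)
    rw [hD]
    linarith
  obtain ⟨S, hS⟩ : ∃ S, S = (Z.map fun ρ => ρ.re - (-1 : ℝ)).sum := ⟨_, rfl⟩
  obtain ⟨N, hN⟩ : ∃ N : ℝ, N = Multiset.card Z := ⟨_, rfl⟩
  obtain ⟨sh1, sh2⟩ := sums_shift Z
  rw [← hS, ← hN] at sh1 sh2
  rw [← hS] at hS1
  rw [sh1] at hS2
  have e1 := hedge 1 ⟨le_rfl, by norm_num⟩
  have e2 := hedge 2 ⟨by norm_num, le_rfl⟩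
  obtain ⟨n1, n2'⟩ := edges_arith (show 0 ≤ T by linarith) hD0 hS1 hS2 e1 e2 (by linarith)
  have n2 : |2 * π * (Z.map fun ρ => ρ.re - 1 / 2).sum| ≤ 5 * (D * T) := by rw [sh2]; exact n2'
  have n3 := right_excess_le hp0 hp1 hsc hQ hy1.le hy hy2.le hΔ.2 (show 0 < T by linarith)
    (show σ ∈ Icc (-1 : ℝ) 1 from ⟨by linarith, by linarith⟩) hLd (by linarith) hσne hms hσI
    (abs_le.1 hS0).2 hE
  obtain ⟨⟨c1, c2⟩, hoff⟩ := aPoints_split a hA (by linarith) hright hy1 hy1' hy2' hy2 hy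
    (fun c hc => (hloc c hc).1) (by linarith) hZ hord
  rw [← hN] at c1 c2
  have hX : 0 ≤ (Z.map fun ρ => |ρ.re - 1 / 2|).sum := Multiset.sum_nonneg fun x hx => by
    obtain ⟨ρ, -, rfl⟩ := Multiset.mem_map.1 hx
    exact abs_nonneg _
  have hsum := sum_abs_le_filter hσb.le Z
  rw [sh2] at hsum n2
  subst hC
  exact ⟨(aPoints_arith (l := Real.log L) hA hK (by linarith) hLT hlL hD0 hQ n2 hX hsum n3 n1 c1 c2
    le_rfl).1, fun δ => (aPoints_arith (l := Real.log L) hA hK (by linarith) hLT hlL hD0 hQ n2 hX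
      hsum n3 n1 c1 c2 (hoff δ)).2⟩

/-- **Almost all are near the line.** -/
theorem tendsto_aOff (a : ℂ) {δ : ℝ} (hδ : 0 < δ) :
    Tendsto (fun T : ℝ => (aOffCount a δ T : ℝ) / aCount a T) atTop (𝓝 0) := by
  obtain ⟨C, hC, h⟩ := exists_aPoints_main a
  have hlim : Tendsto (fun T : ℝ =>
      C * (4 * π) / δ * (Real.log (Real.log T) / Real.log T)) atTop (𝓝 0) := by
    simpa using ((Real.isLittleO_log_id_atTop.tendsto_div_nhds_zero).comp
      Real.tendsto_log_atTop).const_mul (C * (4 * π) / δ)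
  refine squeeze_zero' (Eventually.of_forall fun T => by positivity) ?_ hlim
  filter_upwards [h, eventually_gt_atTop (1 : ℝ),
    Real.tendsto_log_atTop.eventually_ge_atTop (4 * π * C + 1)] with T hT hT1 hL
  obtain ⟨h1, h2⟩ := hT
  have hπ := Real.pi_pos
  have hL0 : 0 < Real.log T := by nlinarith
  have hN : T * Real.log T / (4 * π) ≤ aCount a T := by
    have h3 : C * T ≤ T * Real.log T / (4 * π) := by
      rw [le_div_iff₀ (by positivity)]
      nlinarith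
    have e : T / (2 * π) * Real.log T = 2 * (T * Real.log T / (4 * π)) := by field_simp; ring
    linarith [(abs_le.1 h1).1]
  have h4 : (aOffCount a δ T : ℝ) ≤ C * T * Real.log (Real.log T) / δ := by
    rw [le_div_iff₀' hδ]
    exact h2 δ
  have hnum : 0 ≤ C * T * Real.log (Real.log T) / δ := le_trans (Nat.cast_nonneg _) h4
  have hden : 0 < T * Real.log T / (4 * π) := by have : 0 < T := by linarith
                                                 positivity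
  refine (div_le_div₀ hnum h4 hden hN).trans (le_of_eq ?_)
  field_simp

/-- **Every value is taken infinitely often in every strip about the line.** -/
theorem infinite_aPoints_strip (a : ℂ) {δ : ℝ} (hδ : 0 < δ) :
    {s : ℂ | riemannZeta s = a ∧ |s.re - 1 / 2| < δ}.Infinite := by
  intro hfin
  obtain ⟨B, hB⟩ := (hfin.image Complex.im).bddAbove
  obtain ⟨C, hC, h⟩ := exists_aPoints_main a
  obtain ⟨T, h1, h2, h3, h4⟩ := (((tendsto_aOff a hδ).eventually_lt_const one_pos).and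
    (h.and ((eventually_ge_atTop (max B 1)).and
      (Real.tendsto_log_atTop.eventually_ge_atTop (4 * π * C + 1))))).exists
  rw [max_le_iff] at h3
  have hpos : 0 < (aCount a T : ℝ) := by
    have h5 := (abs_le.1 h2.1).1
    have h6 : C * T < T / (2 * π) * Real.log T := by
      rw [div_mul_eq_mul_div, lt_div_iff₀ (by positivity)]
      nlinarith [Real.pi_pos, mul_nonneg (mul_nonneg hC (show 0 ≤ T by linarith)) Real.pi_pos.le]
    linarith
  rw [div_lt_one hpos, Nat.cast_lt] at h1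
  refine h1.ne (Finset.sum_congr (Finset.filter_eq_self.2 fun ρ hρ => le_of_not_gt fun hlt => ?_)
    fun _ _ => rfl)
  rw [Set.Finite.mem_toFinset] at hρ
  linarith [hB ⟨ρ, ⟨hρ.1, hlt⟩, rfl⟩, hρ.2.2.1]

end FA.APoints

end
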