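import Fermat.Agent.Levinson.Companion
import Fermat.Agent.LevinsonThird.Littlewood

/-!
# `log |ζ|` left and right of the critical strip

`log |ζ (σ + it)| = (1/2 - σ) log (t / 2π) + log |ζ (1 - σ + it)| + O (1)` for
`-3 ≤ σ ≤ 1/2`, by the functional equation and `Γℝ'/Γℝ = log (t / 2π) / 2 + O (1)`; right of
`re s = 2`, `ζ = 1 + 2^(-s) + O (3^(-σ))`.
-/

set_option autoImplicit false

noncomputable section

namespace FA.APoints

open Complex Filter Set
open FA.Levinson (gammaLog gammaLog_add_two norm_gammaLog_sub_le gammaℝ_ne_zero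
  differentiableAt_gammaℝ gammaℝ_mul_zeta_one_sub)
open FA.LevinsonThird (hasDerivAt_log_norm)
open scoped Real ComplexConjugate

theorem norm_gammaLog_le_wide {s : ℂ} (h1 : -4 ≤ s.re) (h2 : s.re ≤ 5) (ht : 4 ≤ |s.im|) :
    ‖gammaLog s - (((Real.log (|s.im| / 2 + 2) - Real.log π) / 2 : ℝ) : ℂ)‖ ≤ 12 := by
  have hs : s.im ≠ 0 := fun h => by rw [h, abs_zero] at ht; norm_num at ht
  have hinv : ∀ z : ℂ, z.im = s.im → ‖1 / z‖ ≤ 1 / 4 := fun z hz => by
    rw [norm_div, norm_one]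
    exact one_div_le_one_div_of_le four_pos (ht.trans (hz ▸ abs_im_le_norm z))
  rcases lt_or_ge s.re (-2) with h3 | h3
  · have a := norm_gammaLog_sub_le (s := s + 2) (by simp; linarith) (by simp; linarith)
      (by simpa using ht)
    rw [gammaLog_add_two hs, show (s + 2).im = s.im by simp] at a
    obtain ⟨v, hv⟩ : ∃ v : ℂ,
        v = (((Real.log (|s.im| / 2 + 2) - Real.log π) / 2 : ℝ) : ℂ) := ⟨_, rfl⟩
    rw [← hv] at a ⊢
    rw [show gammaLog s - v = gammaLog s + 1 / s - v - 1 / s by ring]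
    exact (norm_sub_le _ _).trans ((add_le_add a (hinv s rfl)).trans (by norm_num))
  rcases le_or_gt s.re 3 with h4 | h4
  · exact (norm_gammaLog_sub_le h3 h4 ht).trans (by norm_num)
  · have him : (s - 2).im = s.im := by simp
    have a := norm_gammaLog_sub_le (s := s - 2) (by simp; linarith) (by simp; linarith)
      (by simpa using ht)
    have e := gammaLog_add_two (s := s - 2) (by rw [him]; exact hs)
    rw [sub_add_cancel] at e
    rw [him] at a
    obtain ⟨v, hv⟩ : ∃ v : ℂ,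
        v = (((Real.log (|s.im| / 2 + 2) - Real.log π) / 2 : ℝ) : ℂ) := ⟨_, rfl⟩
    rw [← hv] at a ⊢
    rw [e, show gammaLog (s - 2) + 1 / (s - 2) - v = gammaLog (s - 2) - v + 1 / (s - 2) by ring]
    exact (norm_add_le _ _).trans ((add_le_add a (hinv _ him)).trans (by norm_num))

/-- `|Γℝ'/Γℝ| = log (t / 2π) / 2 + O (1)`. -/
theorem abs_re_gammaLog_sub_le {u t : ℝ} (h1 : -4 ≤ u) (h2 : u ≤ 5) (ht : 4 ≤ t) :
    |(gammaLog ((u : ℂ) + t * I)).re - Real.log (t / (2 * π)) / 2| ≤ 14 := by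
  have him : ((u : ℂ) + t * I).im = t := by simp
  have h := norm_gammaLog_le_wide (s := (u : ℂ) + t * I) (by simpa using h1) (by simpa using h2)
    (by rw [him, abs_of_nonneg (by linarith)]; exact ht)
  rw [him, abs_of_nonneg (by linarith)] at h
  have h' := (abs_re_le_norm _).trans h
  rw [sub_re, ofReal_re] at h'
  have e : Real.log (t / 2 + 2) - Real.log π - Real.log (t / (2 * π)) = Real.log (1 + 4 / t) := by
    rw [show t / (2 * π) = t / 2 / π by ring, Real.log_div (by linarith) Real.pi_ne_zero,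
      show 1 + 4 / t = (t / 2 + 2) / (t / 2) by
        have : t ≠ 0 := by linarith
        field_simp; ring,
      Real.log_div (x := t / 2 + 2) (by linarith) (by linarith)]
    ring
  have h4 : 4 / t ≤ 1 := by rw [div_le_one (by linarith)]; exact ht
  have h0 : 0 < 4 / t := div_pos four_pos (by linarith)
  have hl := Real.log_le_sub_one_of_pos (show 0 < 1 + 4 / t by linarith)
  have hl0 : 0 ≤ Real.log (1 + 4 / t) := Real.log_nonneg (by linarith)
  rw [abs_le] at h' ⊢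
  constructor <;> linarith

/-- **The functional equation in absolute value.** -/
theorem abs_log_norm_zeta_reflect {σ t : ℝ} (h1 : -3 ≤ σ) (h2 : σ ≤ 1 / 2) (ht : 4 ≤ t)
    (hz : riemannZeta ((1 - σ : ℝ) + t * I) ≠ 0) :
    riemannZeta ((σ : ℂ) + t * I) ≠ 0 ∧
      |Real.log ‖riemannZeta ((σ : ℂ) + t * I)‖ - (1 / 2 - σ) * Real.log (t / (2 * π)) -
        Real.log ‖riemannZeta ((1 - σ : ℝ) + t * I)‖| ≤ 100 := by
  obtain ⟨s, hs⟩ : ∃ s : ℂ, s = (σ : ℂ) + t * I := ⟨_, rfl⟩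
  have him : s.im ≠ 0 := by simp [hs]; linarith
  have hne : ∀ u : ℝ, ((u : ℂ) + t * I).im ≠ 0 := fun u => by simp; linarith
  have hconj : 1 - s = conj (((1 - σ : ℝ) : ℂ) + t * I) := by
    apply Complex.ext <;> simp [hs]
  have hfe := congrArg norm (gammaℝ_mul_zeta_one_sub him)
  rw [hconj, riemannZeta_conj, ← FA.HardyZeros.conj_Gammaℝ, norm_mul, norm_mul, Complex.norm_conj,
    Complex.norm_conj, hs] at hfe
  have hg1 := norm_pos_iff.2 (gammaℝ_ne_zero (hne (1 - σ)))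
  have hg2 := norm_pos_iff.2 (gammaℝ_ne_zero (hne σ))
  have hz' := norm_pos_iff.2 hz
  have hz0 : 0 < ‖riemannZeta ((σ : ℂ) + t * I)‖ := by
    refine (mul_pos_iff_of_pos_left hg2).1 ?_
    rw [← hfe]
    positivity
  refine ⟨norm_pos_iff.1 hz0, ?_⟩
  obtain ⟨l, hl⟩ : ∃ l, l = Real.log (t / (2 * π)) := ⟨_, rfl⟩
  obtain ⟨g, hg⟩ : ∃ g : ℝ → ℝ, g = fun u : ℝ => Real.log ‖Gammaℝ ((u : ℂ) + t * I)‖ - l / 2 * u :=
    ⟨_, rfl⟩
  have hd : ∀ u ∈ Icc σ (1 - σ), HasDerivWithinAt g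
      ((gammaLog ((u : ℂ) + t * I)).re - l / 2) (Icc σ (1 - σ)) u := fun u _ => by
    have hp : HasDerivAt (fun v : ℝ => (v : ℂ) + t * I) 1 u := by
      simpa using ((hasDerivAt_id' (u : ℂ)).add_const ((t : ℂ) * I)).comp_ofReal
    have h := (differentiableAt_gammaℝ (gammaℝ_ne_zero (hne u))).hasDerivAt.comp u hp
    rw [hg]
    refine (((hasDerivAt_log_norm h (gammaℝ_ne_zero (hne u))).sub
      ((hasDerivAt_id' u).const_mul (l / 2))).congr_deriv ?_).hasDerivWithinAt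
    simp [gammaLog, Function.comp_apply]
  have hmv := (convex_Icc σ (1 - σ)).norm_image_sub_le_of_norm_hasDerivWithin_le hd
    (fun u hu => (Real.norm_eq_abs _).trans_le
      (hl ▸ abs_re_gammaLog_sub_le (by linarith [hu.1]) (by linarith [hu.2]) ht))
    (left_mem_Icc.2 (by linarith)) (right_mem_Icc.2 (by linarith))
  rw [Real.norm_eq_abs, Real.norm_eq_abs, abs_of_nonneg (show 0 ≤ 1 - σ - σ by linarith), hg] at hmv
  simp only [] at hmv
  have hlog := congrArg Real.log hfe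
  rw [Real.log_mul hg1.ne' hz'.ne', Real.log_mul hg2.ne' hz0.ne'] at hlog
  rw [← hl]
  rw [abs_le] at hmv ⊢
  constructor <;> linarith

/-- **Right of `re s = 2`.** -/
theorem norm_zeta_right {s : ℂ} (hs : 2 ≤ s.re) :
    ‖riemannZeta s - 1 - (2 : ℂ) ^ (-s)‖ ≤ (3 : ℝ) ^ (2 - s.re) / 2 := by
  have h1 : 1 < s.re := by linarith
  have hsum : LSeriesSummable 1 s := LSeriesSummable_one_iff.2 h1
  have h : HasSum (LSeries.term 1 s) (riemannZeta s) :=
    LSeries_one_eq_riemannZeta h1 ▸ hsum.LSeriesHasSum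
  have h' := (hasSum_nat_add_iff' 3).2 h
  have e : ∑ n ∈ Finset.range 3, LSeries.term 1 s n = 1 + (2 : ℂ) ^ (-s) := by
    simp [Finset.sum_range_succ, LSeries.term_of_ne_zero, Complex.cpow_neg, div_eq_mul_inv]
  rw [e, ← sub_sub] at h'
  have hb : HasSum (fun n : ℕ => 1 / ((n + 3 : ℕ) : ℝ) ^ 2) (π ^ 2 / 6 - 5 / 4) := by
    have h3 := (hasSum_nat_add_iff' 3).2 hasSum_zeta_two
    rw [show ∑ n ∈ Finset.range 3, (1 : ℝ) / (n : ℝ) ^ 2 = 5 / 4 by
      norm_num [Finset.sum_range_succ]] at h3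
    exact h3
  rw [← h'.tsum_eq]
  refine (tsum_of_norm_bounded (hb.mul_left ((3 : ℝ) ^ (2 - s.re))) fun n => ?_).trans ?_
  · rw [LSeries.norm_term_eq, if_neg (by omega), Pi.one_apply, norm_one]
    obtain ⟨m, hm⟩ : ∃ m : ℝ, m = ((n + 3 : ℕ) : ℝ) := ⟨_, rfl⟩
    have hm3 : 3 ≤ m := by rw [hm]; push_cast; linarith [(Nat.cast_nonneg n : (0 : ℝ) ≤ n)]
    have hm0 : 0 < m := by linarith
    rw [← hm, one_div, one_div, ← Real.rpow_neg hm0.le, ← Real.rpow_natCast m 2,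
      ← Real.rpow_neg hm0.le,
      show -s.re = (2 - s.re) + -((2 : ℕ) : ℝ) by push_cast; ring, Real.rpow_add hm0]
    exact mul_le_mul_of_nonneg_right
      (Real.rpow_le_rpow_of_nonpos (by norm_num) hm3 (by linarith)) (Real.rpow_nonneg hm0.le _)
  · rw [div_eq_mul_inv _ (2 : ℝ)]
    refine mul_le_mul_of_nonneg_left ?_ (by positivity)
    nlinarith [Real.pi_lt_d2, Real.pi_pos]

theorem norm_two_cpow_neg (s : ℂ) : ‖(2 : ℂ) ^ (-s)‖ = (2 : ℝ) ^ (-s.re) := by
  rw [show (2 : ℂ) = ((2 : ℝ) : ℂ) by norm_num, norm_cpow_eq_rpow_re_of_pos two_pos, neg_re]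

theorem zeta_bounds_right {s : ℂ} (hs : 2 ≤ s.re) :
    1 / 4 ≤ ‖riemannZeta s‖ ∧ ‖riemannZeta s‖ ≤ 2 := by
  have h := norm_zeta_right hs
  have h3 : (3 : ℝ) ^ (2 - s.re) ≤ 1 :=
    Real.rpow_le_one_of_one_le_of_nonpos (by norm_num) (by linarith)
  have h2 : ‖(2 : ℂ) ^ (-s)‖ ≤ 1 / 4 := by
    rw [norm_two_cpow_neg, show (1 / 4 : ℝ) = (2 : ℝ) ^ (-2 : ℝ) by norm_num]
    exact Real.rpow_le_rpow_of_exponent_le one_le_two (by linarith)
  have a := norm_sub_norm_le (1 : ℂ) (riemannZeta s)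
  have b := norm_le_norm_add_norm_sub' (riemannZeta s) (1 : ℂ)
  have c : ‖riemannZeta s - 1‖ ≤ 3 / 4 := by
    have := norm_le_norm_add_norm_sub' (riemannZeta s - 1) ((2 : ℂ) ^ (-s))
    linarith
  rw [norm_sub_rev, norm_one] at a
  rw [norm_one] at b
  constructor <;> linarith

/-- **On `-2 ≤ σ ≤ -1`.** -/
theorem abs_log_norm_zeta_left {σ t : ℝ} (h1 : -2 ≤ σ) (h2 : σ ≤ -1) (ht : 4 ≤ t) :
    riemannZeta ((σ : ℂ) + t * I) ≠ 0 ∧
      |Real.log ‖riemannZeta ((σ : ℂ) + t * I)‖ - (1 / 2 - σ) * Real.log (t / (2 * π))| ≤ 103 := by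
  obtain ⟨a, b⟩ := zeta_bounds_right (s := ((1 - σ : ℝ) : ℂ) + t * I) (by simp; linarith)
  obtain ⟨c, d⟩ := abs_log_norm_zeta_reflect (σ := σ) (t := t) (by linarith) (by linarith) ht
    (norm_pos_iff.1 (by linarith))
  refine ⟨c, ?_⟩
  have hlb : Real.log (1 / 4) ≤ Real.log ‖riemannZeta (((1 - σ : ℝ) : ℂ) + t * I)‖ :=
    Real.log_le_log (by norm_num) a
  have hub := Real.log_le_sub_one_of_pos
    (show 0 < ‖riemannZeta (((1 - σ : ℝ) : ℂ) + t * I)‖ by linarith)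
  have h4 : -3 ≤ Real.log (1 / 4 : ℝ) := by
    have := Real.one_sub_inv_le_log_of_pos (show (0 : ℝ) < 1 / 4 by norm_num)
    norm_num at this ⊢
    linarith
  rw [abs_le] at d ⊢
  constructor <;> linarith

/-- **A polynomial bound in a wide strip.** -/
theorem norm_zeta_wide {s : ℂ} (h1 : -3 ≤ s.re) (ht : 7 ≤ s.im) :
    ‖riemannZeta s‖ ≤ Real.exp 100 * (5 * (s.im + 3)) ^ 5 := by
  have hone : (1 : ℝ) ≤ 5 * (s.im + 3) := by linarith
  have habs : |s.im| = s.im := abs_of_nonneg (by linarith)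
  have hright : ∀ z : ℂ, 1 / 4 ≤ z.re → |z.im| = s.im → ‖riemannZeta z‖ ≤ 5 * (s.im + 3) :=
    fun z hz him => by
    rcases le_or_gt z.re 3 with h | h
    · exact him ▸ FA.DLVP.norm_zeta_crude hz h (by rw [him]; linarith)
    · exact (zeta_bounds_right (by linarith)).2.trans (by linarith)
  have hpow : 5 * (s.im + 3) ≤ (5 * (s.im + 3)) ^ 5 := le_self_pow₀ hone (by norm_num)
  rcases le_or_gt (1 / 4 : ℝ) s.re with h2 | h2
  · exact (hright s h2 habs).trans (hpow.trans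
      (le_mul_of_one_le_left (by positivity) (Real.one_le_exp (by norm_num))))
  obtain ⟨w, hw⟩ : ∃ w : ℂ, w = ((1 - s.re : ℝ) : ℂ) + (s.im : ℝ) * I := ⟨_, rfl⟩
  have hwb : ‖riemannZeta w‖ ≤ 5 * (s.im + 3) :=
    hright w (by simp [hw]; linarith) (by simpa [hw] using habs)
  rcases eq_or_ne (riemannZeta w) 0 with hw0 | hw0
  · have him : s.im ≠ 0 := by linarith
    have hz := gammaℝ_mul_zeta_one_sub him
    rw [show 1 - s = conj w by apply Complex.ext <;> simp [hw], riemannZeta_conj, hw0, map_zero,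
      mul_zero, eq_comm, mul_eq_zero, or_iff_right (gammaℝ_ne_zero him)] at hz
    rw [hz, norm_zero]
    positivity
  obtain ⟨hne, hb⟩ := abs_log_norm_zeta_reflect h1 (by linarith) (show 4 ≤ s.im by linarith)
    (hw ▸ hw0)
  rw [Complex.re_add_im] at hne hb
  rw [← hw] at hb
  have hl0 : 0 ≤ Real.log (s.im / (2 * π)) := Real.log_nonneg (by
    rw [le_div_iff₀ (by positivity), one_mul]
    linarith [Real.pi_lt_d2])
  have hl1 : Real.log (s.im / (2 * π)) ≤ Real.log (5 * (s.im + 3)) :=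
    Real.log_le_log (by positivity) (by
      rw [div_le_iff₀ (by positivity)]
      nlinarith [Real.pi_gt_three])
  have hlw : Real.log ‖riemannZeta w‖ ≤ Real.log (5 * (s.im + 3)) :=
    Real.log_le_log (norm_pos_iff.2 hw0) hwb
  refine (Real.log_le_log_iff (norm_pos_iff.2 hne) (by positivity)).1 ?_
  rw [Real.log_mul (Real.exp_ne_zero _) (by positivity), Real.log_exp, Real.log_pow,
    Nat.cast_ofNat]
  have h5 : (1 / 2 - s.re) * Real.log (s.im / (2 * π)) ≤ 4 * Real.log (5 * (s.im + 3)) :=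
    mul_le_mul (by linarith) hl1 hl0 (by norm_num)
  linarith [(abs_le.1 hb).2]

end FA.APoints

end
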